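import Fermat.Agent.S51.Exist

set_option autoImplicit false
set_option linter.unusedSectionVars false

namespace Fermat.Agent.S51

open WeierstrassCurve WeierstrassCurve.Affine

variable {F : Type*} [Field F] [DecidableEq F] (E : WeierstrassCurve.Affine F)

open Classical in
/-- a chosen point with a given x-coordinate -/
noncomputable def chosenPt (x : F) : E.Point :=
  if h : ∃ y, E.Nonsingular x y then Point.some x h.choose h.choose_spec else 0

theorem eq_chosenPt_or {x y : F} (h : E.Nonsingular x y) :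
    Point.some x y h = chosenPt E x ∨ Point.some x y h = - chosenPt E x := by
  have hex : ∃ y, E.Nonsingular x y := ⟨y, h⟩
  rw [chosenPt, dif_pos hex]
  exact (Point.X_eq_iff (h₁ := h) (h₂ := hex.choose_spec)).mp rfl

theorem finite_card_le (S : Finset F) (A : Set E.Point)
    (hA : ∀ (x y : F) (h : E.Nonsingular x y), Point.some x y h ∈ A → x ∈ S) :
    A.Finite ∧ A.ncard ≤ 2 * S.card + 1 := by
  classical
  set B : Finset E.Point := insert 0 (S.image (chosenPt E) ∪ S.image (fun x => - chosenPt E x))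
    with hB
  have hsub : A ⊆ (B : Set E.Point) := by
    intro P hP
    rcases P with _ | ⟨x, y, h⟩
    · rw [hB]; simp [Point.zero_def]
    · have hx := hA x y h hP
      rw [hB]
      rcases eq_chosenPt_or E h with h1 | h1
      · rw [h1]
        simp only [Finset.coe_insert, Finset.coe_union, Finset.coe_image]
        right; left; exact ⟨x, hx, rfl⟩
      · rw [h1]
        simp only [Finset.coe_insert, Finset.coe_union, Finset.coe_image]
        right; right; exact ⟨x, hx, rfl⟩
  refine ⟨B.finite_toSet.subset hsub, ?_⟩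
  calc A.ncard ≤ (B : Set E.Point).ncard := Set.ncard_le_ncard hsub B.finite_toSet
    _ = B.card := Set.ncard_coe_finset B
    _ ≤ (S.image (chosenPt E) ∪ S.image (fun x => - chosenPt E x)).card + 1 :=
        Finset.card_insert_le _ _
    _ ≤ (S.image (chosenPt E)).card + (S.image (fun x => - chosenPt E x)).card + 1 := by
        gcongr; exact Finset.card_union_le _ _
    _ ≤ S.card + S.card + 1 := by
        gcongr <;> exact Finset.card_image_le
    _ = 2 * S.card + 1 := by ring

theorem torsion3_finite [CharZero F] :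
    Finite (Submodule.torsionBy ℤ E.Point ((3:ℕ):ℤ)) ∧
      Nat.card (Submodule.torsionBy ℤ E.Point ((3:ℕ):ℤ)) ≤ 3^2 := by
  have hne : E.Ψ₃ ≠ 0 := E.Ψ₃_ne_zero (by norm_num)
  have h := finite_card_le E E.Ψ₃.roots.toFinset
    (Submodule.torsionBy ℤ E.Point ((3:ℕ):ℤ) : Set E.Point) (by
      intro x y h hP
      rw [Multiset.mem_toFinset, Polynomial.mem_roots hne, Polynomial.IsRoot, eval_Ψ₃]
      apply p3_of_three E h
      simpa using hP)
  refine ⟨h.1, ?_⟩
  have hc : E.Ψ₃.roots.toFinset.card ≤ 4 :=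
    (Multiset.toFinset_card_le _).trans ((Polynomial.card_roots' _).trans E.natDegree_Ψ₃_le)
  have := h.2
  rw [← Nat.card_coe_set_eq] at this
  calc _ ≤ 2 * E.Ψ₃.roots.toFinset.card + 1 := this
    _ ≤ 3^2 := by omega

theorem torsion5_finite [CharZero F] :
    Finite (Submodule.torsionBy ℤ E.Point ((5:ℕ):ℤ)) ∧
      Nat.card (Submodule.torsionBy ℤ E.Point ((5:ℕ):ℤ)) ≤ 5^2 := by
  have hne : E.preΨ' 5 ≠ 0 := E.preΨ'_ne_zero (by norm_num)
  have h := finite_card_le E (E.preΨ' 5).roots.toFinset
    (Submodule.torsionBy ℤ E.Point ((5:ℕ):ℤ) : Set E.Point) (by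
      intro x y h hP
      rw [Multiset.mem_toFinset, Polynomial.mem_roots hne, Polynomial.IsRoot, eval_preΨ'_five]
      obtain ⟨_, _, _, _, _, _, _, _, _, h5⟩ := five_data E h (by simpa using hP)
      exact h5)
  refine ⟨h.1, ?_⟩
  have hc : (E.preΨ' 5).roots.toFinset.card ≤ 12 :=
    (Multiset.toFinset_card_le _).trans ((Polynomial.card_roots' _).trans
      ((E.natDegree_preΨ'_le 5).trans (by norm_num)))
  have := h.2
  rw [← Nat.card_coe_set_eq] at this
  calc _ ≤ 2 * (E.preΨ' 5).roots.toFinset.card + 1 := this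
    _ ≤ 5^2 := by omega

theorem line_of_proper {p : ℕ} [Fact p.Prime] {V : Type*} [AddCommGroup V] [Module (ZMod p) V]
    [Finite V] (hcard : Nat.card V ≤ p^2) (N : Submodule (ZMod p) V) (h0 : N ≠ ⊥) (h1 : N ≠ ⊤) :
    ∃ v ∈ N, v ≠ 0 ∧ ∀ w ∈ N, ∃ k : ℕ, k < p ∧ w = k • v := by
  have hp : p.Prime := Fact.out
  have hfin : Module.Finite (ZMod p) V := Module.Finite.of_finite
  have hr : Module.finrank (ZMod p) V ≤ 2 := by
    have h := Module.natCard_eq_pow_finrank (K := ZMod p) (V := V)
    rw [Nat.card_zmod] at h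
    rw [h] at hcard
    exact (Nat.pow_le_pow_iff_right hp.one_lt).mp hcard
  have hlt : Module.finrank (ZMod p) N < Module.finrank (ZMod p) V :=
    Submodule.finrank_lt h1
  have hpos : Module.finrank (ZMod p) N ≠ 0 := by
    intro h
    exact h0 (Submodule.finrank_eq_zero.mp h)
  have h1' : Module.finrank (ZMod p) N = 1 := by omega
  obtain ⟨v, hv0, hv⟩ := finrank_eq_one_iff'.mp h1'
  refine ⟨v.1, v.2, fun h => hv0 (Subtype.ext h), fun w hw => ?_⟩
  obtain ⟨c, hc⟩ := hv ⟨w, hw⟩
  refine ⟨c.val, ZMod.val_lt c, ?_⟩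
  have : w = c • v.1 := by
    have := congrArg Subtype.val hc
    simpa using this.symm
  rw [this, ← Nat.cast_smul_eq_nsmul (ZMod p), ZMod.natCast_zmod_val]

end Fermat.Agent.S51
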