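import Fermat.Agent.S51.Count
import Fermat.Statements.S51

set_option autoImplicit false
set_option linter.unusedSectionVars false

namespace Fermat.Agent.S51

open WeierstrassCurve WeierstrassCurve.Affine WeierstrassCurve.Affine.Point

local notation "Kbar" => AlgebraicClosure ℚ

theorem smul_some (E0 : WeierstrassCurve.Affine ℚ) (σ : Kbar ≃ₐ[ℚ] Kbar) {x y : Kbar}
    (h : (E0⁄Kbar).Nonsingular x y) :
    ∃ h' : (E0⁄Kbar).Nonsingular (σ x) (σ y),
      σ • (Point.some x y h : (E0⁄Kbar).Point) = Point.some (σ x) (σ y) h' := by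
  rw [algEquiv_smul_def, Point.map_some]
  exact ⟨_, rfl⟩

theorem isAlgClosure_rat : IsAlgClosure ℚ Kbar := by
  have h : (DivisionRing.toRatAlgebra : Algebra ℚ Kbar) = AlgebraicClosure.instAlgebra ℚ :=
    Subsingleton.elim _ _
  rw [h]
  infer_instance

theorem isGalois_rat : IsGalois ℚ Kbar :=
  haveI := isAlgClosure_rat
  IsAlgClosure.isGalois _ _

theorem mem_range_of_fixed (x : Kbar) (h : ∀ σ : Kbar ≃ₐ[ℚ] Kbar, σ x = x) :
    ∃ q : ℚ, algebraMap ℚ Kbar q = x := by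
  have := isGalois_rat
  have := (InfiniteGalois.mem_range_algebraMap_iff_fixed (k := ℚ) (K := Kbar) x).mpr h
  exact this

theorem data3 (E0 : WeierstrassCurve.Affine ℚ)
    (N : Submodule (ZMod 3) (Submodule.torsionBy ℤ (E0⁄Kbar).Point (3:ℕ)))
    (hst : IsGaloisStable ℚ N) (h0 : N ≠ ⊥) (h1 : N ≠ ⊤) :
    ∃ x0 : ℚ, p3 (E0⁄Kbar) (algebraMap ℚ Kbar x0) = 0 := by
  obtain ⟨hfin, hcard⟩ := torsion3_finite (E0⁄Kbar)
  obtain ⟨v, hvN, hv0, hv⟩ := line_of_proper hcard N h0 h1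
  obtain ⟨P, hP⟩ := v
  have hP3 : (3:ℤ) • P = 0 := by simpa using hP
  have hP0 : P ≠ 0 := fun h => hv0 (Subtype.ext h)
  rcases P with _ | ⟨x, y, h⟩
  · exact absurd rfl hP0
  have hp3 := p3_of_three _ h hP3
  have hfix : ∀ σ : Kbar ≃ₐ[ℚ] Kbar, σ x = x := by
    intro σ
    obtain ⟨k, hk, hw⟩ := hv _ (hst σ _ hvN)
    have hw' : σ • (Point.some x y h : (E0⁄Kbar).Point) = k • Point.some x y h :=
      congrArg Subtype.val hw
    obtain ⟨h', hs⟩ := smul_some E0 σ h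
    rw [hs] at hw'
    interval_cases k
    · simp at hw'
    · rw [one_smul, Point.some.injEq] at hw'
      exact hw'.1
    · have : (2:ℕ) • (Point.some x y h : (E0⁄Kbar).Point) = - Point.some x y h := by
        have e : (2:ℕ) • (Point.some x y h : (E0⁄Kbar).Point)
            = (3:ℤ) • Point.some x y h - Point.some x y h := by abel
        rw [e, hP3]; simp
      rw [this, Point.neg_some, Point.some.injEq] at hw'
      exact hw'.1
  obtain ⟨q, hq⟩ := mem_range_of_fixed x hfix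
  exact ⟨q, by rw [hq]; exact hp3⟩

theorem smul_x (E0 : WeierstrassCurve.Affine ℚ) (σ : Kbar ≃ₐ[ℚ] Kbar) {x y x' y' : Kbar}
    (h : (E0⁄Kbar).Nonsingular x y) (h' : (E0⁄Kbar).Nonsingular x' y')
    (hs : σ • (Point.some x y h : (E0⁄Kbar).Point) = Point.some x' y' h' ∨
      σ • (Point.some x y h : (E0⁄Kbar).Point) = - Point.some x' y' h') : σ x = x' := by
  obtain ⟨h'', hs'⟩ := smul_some E0 σ h
  rw [hs'] at hs
  rcases hs with hs | hs
  · rw [Point.some.injEq] at hs; exact hs.1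
  · rw [Point.neg_some, Point.some.injEq] at hs; exact hs.1

theorem data5 (E0 : WeierstrassCurve.Affine ℚ)
    (N : Submodule (ZMod 5) (Submodule.torsionBy ℤ (E0⁄Kbar).Point (5:ℕ)))
    (hst : IsGaloisStable ℚ N) (h0 : N ≠ ⊥) (h1 : N ≠ ⊤) :
    ∃ (s1 s2 : ℚ) (x1 x2 : Kbar), algebraMap ℚ Kbar s1 = x1 + x2 ∧
      algebraMap ℚ Kbar s2 = x1 * x2 ∧ x1 ≠ x2 ∧ fX (E0⁄Kbar) x1 ≠ 0 ∧
      x2 * fX (E0⁄Kbar) x1 = gX (E0⁄Kbar) x1 ∧ x1 * fX (E0⁄Kbar) x2 = gX (E0⁄Kbar) x2 := by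
  have : Fact (Nat.Prime 5) := ⟨by norm_num⟩
  obtain ⟨hfin, hcard⟩ := torsion5_finite (E0⁄Kbar)
  obtain ⟨v, hvN, hv0, hv⟩ := line_of_proper hcard N h0 h1
  obtain ⟨P, hP⟩ := v
  have hP5 : (5:ℤ) • P = 0 := by simpa using hP
  have hP0 : P ≠ 0 := fun h => hv0 (Subtype.ext h)
  rcases P with _ | ⟨x1, y1, h⟩
  · exact absurd rfl hP0
  obtain ⟨x2, y2, h2, hd, hf1, hf2, e12, e21, hne, -⟩ := five_data _ h hP5
  have hfix : ∀ σ : Kbar ≃ₐ[ℚ] Kbar, (σ x1 = x1 ∧ σ x2 = x2) ∨ (σ x1 = x2 ∧ σ x2 = x1) := by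
    intro σ
    obtain ⟨k, hk, hw⟩ := hv _ (hst σ _ hvN)
    have hw' : σ • (Point.some x1 y1 h : (E0⁄Kbar).Point) = k • Point.some x1 y1 h :=
      congrArg Subtype.val hw
    have hQ : σ • (Point.some x2 y2 h2 : (E0⁄Kbar).Point)
        = k • Point.some x1 y1 h + k • Point.some x1 y1 h := by
      rw [← hd, algEquiv_smul_def, map_add, ← algEquiv_smul_def, hw']
    generalize hPdef : (Point.some x1 y1 h : (E0⁄Kbar).Point) = P at *
    generalize hQdef : (Point.some x2 y2 h2 : (E0⁄Kbar).Point) = Q at *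
    interval_cases k
    · exfalso
      obtain ⟨h', hs⟩ := smul_some E0 σ h
      rw [hPdef, hw'] at hs
      simp at hs
    · left
      constructor
      · apply smul_x E0 σ h h; left; rw [hPdef, hw']; simp
      · apply smul_x E0 σ h2 h2; left; rw [hQdef, hQ, ← hd]; simp
    · right
      constructor
      · apply smul_x E0 σ h h2; left; rw [hPdef, hQdef, hw', ← hd]; abel
      · apply smul_x E0 σ h2 h; right; rw [hPdef, hQdef, hQ]
        have : (2:ℕ) • P + (2:ℕ) • P = (5:ℤ) • P - P := by abel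
        rw [this, hP5]; simp
    · right
      constructor
      · apply smul_x E0 σ h h2; right; rw [hPdef, hQdef, hw', ← hd]
        have : (3:ℕ) • P = (5:ℤ) • P - (P + P) := by abel
        rw [this, hP5]; simp
      · apply smul_x E0 σ h2 h; left; rw [hPdef, hQdef, hQ]
        have : (3:ℕ) • P + (3:ℕ) • P = (5:ℤ) • P + P := by abel
        rw [this, hP5]; simp
    · left
      constructor
      · apply smul_x E0 σ h h; right; rw [hPdef, hw']
        have : (4:ℕ) • P = (5:ℤ) • P - P := by abel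
        rw [this, hP5]; simp
      · apply smul_x E0 σ h2 h2; right; rw [hQdef, hQ, ← hd]
        have : (4:ℕ) • P + (4:ℕ) • P = (2:ℤ) • ((5:ℤ) • P) - (P + P) := by
          rw [smul_smul]; abel
        rw [this, hP5]; abel
  obtain ⟨s1, hs1⟩ := mem_range_of_fixed (x1 + x2) (by
    intro σ
    rcases hfix σ with ⟨a, b⟩ | ⟨a, b⟩
    · rw [map_add, a, b]
    · rw [map_add, a, b, add_comm])
  obtain ⟨s2, hs2⟩ := mem_range_of_fixed (x1 * x2) (by
    intro σ
    rcases hfix σ with ⟨a, b⟩ | ⟨a, b⟩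
    · rw [map_mul, a, b]
    · rw [map_mul, a, b, mul_comm])
  exact ⟨s1, s2, x1, x2, hs1, hs2, hne, hf1, e12, e21⟩

end Fermat.Agent.S51
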