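import Mathlib

set_option autoImplicit false

namespace Fermat.Agent.S51

section field

variable {K : Type*} [Field K]

theorem norm_rel1 (b ξ : K) (hb : b ≠ 0)
    (hR : ξ^3*b^2 + 3*ξ^2*(ξ-1)^2*b + (ξ-1)^3 = 0) :
    (1 + ξ*(ξ-1)) * ((2*ξ-1)*(b + 1/b)) + (1 + 3*(ξ*(ξ-1))) * (b - 1/b) = -6*(ξ*(ξ-1))^2 := by
  field_simp
  linear_combination (2:K) * hR

theorem norm_rel2 (b ξ : K) (hb : b ≠ 0) :
    ((2*ξ-1)*(b + 1/b))^2 = (4*(ξ*(ξ-1))+1) * ((b - 1/b)^2 + 4) := by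
  field_simp
  ring

theorem solve5 (b2 b4 b6 b8 x1 x2 : K)
    (h8 : 4*b8 = b2*b6 - b4^2)
    (h12 : x2 * (4*x1^3 + b2*x1^2 + 2*b4*x1 + b6) = x1^4 - b4*x1^2 - 2*b6*x1 - b8)
    (h21 : x1 * (4*x2^3 + b2*x2^2 + 2*b4*x2 + b6) = x2^4 - b4*x2^2 - 2*b6*x2 - b8)
    (hne : x1 ≠ x2)
    (hf1 : 4*x1^3 + b2*x1^2 + 2*b4*x1 + b6 ≠ 0) :
    ∃ e F : K, e ≠ 0 ∧ F ≠ 0 ∧ x2 = x1 + e ∧
      b2 = (e^2 - F/e)^2/F - 4*e - 12*x1 ∧
      b4 = (e^2 - F/e) - ((e^2 - F/e)^2/F - 4*e - 12*x1)*x1 - 6*x1^2 ∧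
      b6 = F - 4*x1^3 - ((e^2 - F/e)^2/F - 4*e - 12*x1)*x1^2
        - 2*((e^2 - F/e) - ((e^2 - F/e)^2/F - 4*e - 12*x1)*x1 - 6*x1^2)*x1 := by
  set F := 4*x1^3 + b2*x1^2 + 2*b4*x1 + b6 with hF
  set e := x2 - x1 with he
  have he0 : e ≠ 0 := sub_ne_zero.mpr (Ne.symm hne)
  have hx2 : x2 = x1 + e := by rw [he]; ring
  have E1 : (b4 + b2*x1 + 6*x1^2) * e = e^3 - F := by
    have : e * ((b4 + b2*x1 + 6*x1^2) * e - (e^3 - F)) = 0 := by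
      rw [hF, he]
      linear_combination h21 - h12
    rcases mul_eq_zero.mp this with h | h
    · exact absurd h he0
    · linear_combination h
  have E1' : b4 + b2*x1 + 6*x1^2 = e^2 - F/e := by
    field_simp
    linear_combination E1
  have E2 : (b2 + 12*x1 + 4*e) * F = (b4 + b2*x1 + 6*x1^2)^2 := by
    rw [hF, he]
    linear_combination (4 : K) * h12 - h8
  have hb2 : b2 = (e^2 - F/e)^2/F - 4*e - 12*x1 := by
    rw [← E1']
    field_simp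
    linear_combination E2
  have hb4 : b4 = (e^2 - F/e) - ((e^2 - F/e)^2/F - 4*e - 12*x1)*x1 - 6*x1^2 := by
    rw [← hb2]
    linear_combination E1'
  refine ⟨e, F, he0, hf1, hx2, hb2, hb4, ?_⟩
  rw [← hb4, ← hb2]
  rw [hF]; ring

theorem moduli_rel [CharZero K] (b2 b4 b6 b8 x0 x1 x2 : K)
    (h8 : 4*b8 = b2*b6 - b4^2)
    (h12 : x2 * (4*x1^3 + b2*x1^2 + 2*b4*x1 + b6) = x1^4 - b4*x1^2 - 2*b6*x1 - b8)
    (h21 : x1 * (4*x2^3 + b2*x2^2 + 2*b4*x2 + b6) = x2^4 - b4*x2^2 - 2*b6*x2 - b8)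
    (hne : x1 ≠ x2)
    (hf1 : 4*x1^3 + b2*x1^2 + 2*b4*x1 + b6 ≠ 0)
    (h3 : 3*x0^4 + b2*x0^3 + 3*b4*x0^2 + 3*b6*x0 + b8 = 0)
    (s1 s2 D U w Y : K) (hs1 : s1 = x1 + x2) (hs2 : s2 = x1 * x2) (hD : D = s1^2 - 4*s2)
    (hU : U = (x0^2 - s1*x0 + s2)/D)
    (hw : w = (2*b4 + b2*s1 + 6*s1^2 - 12*s2)/D - 2)
    (hY : Y = (2*x0 - s1)*(b2 + 6*s1)/D) :
    D ≠ 0 ∧ (1+U)*Y + (1+3*U)*w = -6*U^2 ∧ Y^2 = (4*U+1)*(w^2+4) ∧
    b2^2 - 24*b4 = D*((w-11)^2 + 10*(w-11) + 5) ∧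
    -b2^2*b8 - 8*b4^3 - 27*b6^2 + 9*b2*b4*b6 = D^3*(w-11) := by
  obtain ⟨e, F, he, hF, hx2, hb2, hb4, hb6⟩ := solve5 b2 b4 b6 b8 x1 x2 h8 h12 h21 hne hf1
  have hb8 : b8 = (b2*b6 - b4^2)/4 := by
    field_simp; linear_combination h8
  have hD' : D = e^2 := by rw [hD, hs1, hs2, hx2]; ring
  have hD0 : D ≠ 0 := by rw [hD']; exact pow_ne_zero 2 he
  set b := e^3/F with hb
  have hb0 : b ≠ 0 := div_ne_zero (pow_ne_zero 3 he) hF
  set ξ := (x0 - x1)/e with hξ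
  have hx0 : x0 = x1 + ξ*e := by rw [hξ]; field_simp; ring
  have hU' : U = ξ*(ξ-1) := by
    rw [hU, hD', hs1, hs2, hx2, hx0]; field_simp; ring
  have hw' : w = b - 1/b := by
    rw [hw, hD', hs1, hs2, hb4, hb2, hx2, hb]; field_simp; ring
  have hY' : Y = (2*ξ-1)*(b+1/b) := by
    rw [hY, hD', hs1, hb2, hx2, hx0, hb]; field_simp; ring
  have hR : ξ^3*b^2 + 3*ξ^2*(ξ-1)^2*b + (ξ-1)^3 = 0 := by
    have key : 3*x0^4 + b2*x0^3 + 3*b4*x0^2 + 3*b6*x0 + b8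
        = (e^4/b) * (ξ^3*b^2 + 3*ξ^2*(ξ-1)^2*b + (ξ-1)^3) := by
      rw [hb8, hb6, hb4, hb2, hx0, hb]; field_simp; ring
    rw [h3] at key
    rcases mul_eq_zero.mp key.symm with h | h
    · exact absurd h (div_ne_zero (pow_ne_zero 4 he) hb0)
    · exact h
  refine ⟨hD0, ?_, ?_, ?_, ?_⟩
  · rw [hU', hw', hY']; exact norm_rel1 b ξ hb0 hR
  · rw [hU', hw', hY']; exact norm_rel2 b ξ hb0
  · rw [hw', hD', hb4, hb2, hb]; field_simp; ring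
  · rw [hw', hD', hb8, hb6, hb4, hb2, hb]; field_simp; ring

end field

/-- from an integer relation `A * c4^3 = 5 * B * Δ` with `5 ∤ A`, `5 ∤ B`... -/
theorem five_dvd_of_rel (c4 Δ A B : ℤ) (hA : ¬ (5:ℤ) ∣ A) (hB : ¬ (5:ℤ) ∣ B)
    (h : A * c4^3 = 5 * B * Δ) : (5:ℤ) ∣ c4 ∧ (5:ℤ) ∣ Δ := by
  have p5 : Prime (5:ℤ) := by norm_num
  have h1 : (5:ℤ) ∣ A * c4^3 := ⟨B * Δ, by rw [h]; ring⟩
  have h2 : (5:ℤ) ∣ c4 := by
    rcases p5.dvd_or_dvd h1 with h | h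
    · exact absurd h hA
    · exact p5.dvd_of_dvd_pow h
  refine ⟨h2, ?_⟩
  obtain ⟨k, rfl⟩ := h2
  have h3 : B * Δ = 5 * (5 * A * k^3) := by
    have : (5:ℤ) * (B * Δ) = 5 * (5 * (5 * A * k^3)) := by linear_combination -h
    exact mul_left_cancel₀ (by norm_num) this
  have h4 : (5:ℤ) ∣ B * Δ := ⟨_, h3⟩
  rcases p5.dvd_or_dvd h4 with h | h
  · exact absurd h hB
  · exact h

theorem five_dvd_of_rel2 (c4 Δ A B : ℤ) (hA : ¬ (5:ℤ) ∣ A) (hB : ¬ (5:ℤ) ∣ B)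
    (h : A * c4^3 = 25 * B * Δ) : (5:ℤ) ∣ c4 ∧ (5:ℤ) ∣ Δ := by
  have p5 : Prime (5:ℤ) := by norm_num
  have h1 : (5:ℤ) ∣ A * c4^3 := ⟨5 * B * Δ, by rw [h]; ring⟩
  have h2 : (5:ℤ) ∣ c4 := by
    rcases p5.dvd_or_dvd h1 with h | h
    · exact absurd h hA
    · exact p5.dvd_of_dvd_pow h
  refine ⟨h2, ?_⟩
  obtain ⟨k, rfl⟩ := h2
  have h3 : B * Δ = 5 * (A * k^3) := by
    have : (25:ℤ) * (B * Δ) = 25 * (5 * (A * k^3)) := by linear_combination -h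
    exact mul_left_cancel₀ (by norm_num) this
  have h4 : (5:ℤ) ∣ B * Δ := ⟨_, h3⟩
  rcases p5.dvd_or_dvd h4 with h | h
  · exact absurd h hB
  · exact h

theorem endgame
    (hE15 : ∀ x y : ℚ, y^2 = x*(x+9)*(x-16) → x = 0 ∨ x = -9 ∨ x = 16 ∨ x = -4 ∨ x = 36)
    (U w Y D : ℚ) (c4 Δ : ℤ) (hΔ : Δ ≠ 0)
    (h1 : (1+U)*Y + (1+3*U)*w = -6*U^2) (h2 : Y^2 = (4*U+1)*(w^2+4))
    (h3 : (c4:ℚ) = D*((w-11)^2+10*(w-11)+5)) (h4 : (Δ:ℚ) = D^3*(w-11)) :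
    (5:ℤ) ∣ c4 ∧ (5:ℤ) ∣ Δ := by
  have hQ : U^3*w^2 - 3*U^2*(1+3*U)*w - 9*U^4 + 4*U^3 + 9*U^2 + 6*U + 1 = 0 := by
    have hsq : ((1+U)*Y)^2 = (6*U^2 + (1+3*U)*w)^2 := by
      have : (1+U)*Y = -(6*U^2 + (1+3*U)*w) := by linear_combination h1
      rw [this]; ring
    have : (1+U)^2 * ((4*U+1)*(w^2+4)) = (6*U^2 + (1+3*U)*w)^2 := by
      rw [← h2, ← hsq]; ring
    linear_combination (1/4 : ℚ) * this
  have hU1 : U ≠ -1 := by
    rintro rfl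
    have : Y^2 = -3 * (w^2+4) := by rw [h2]; ring
    nlinarith [sq_nonneg Y, sq_nonneg w]
  have hU0 : U ≠ 0 := by
    rintro rfl
    norm_num at hQ
  have hU1' : U + 1 ≠ 0 := fun h => hU1 (by linear_combination h)
  have hw11 : w ≠ 11 := by
    rintro rfl
    apply hΔ
    have : (Δ:ℚ) = 0 := by rw [h4]; ring
    exact_mod_cast this
  have hrel : (c4:ℚ)^3 * (w-11) = ((w-11)^2+10*(w-11)+5)^3 * Δ := by
    rw [h3, h4]; ring
  have hZ2 : ((2*U^2*w - 3*U*(1+3*U))/(U+1))^2 = U*(9*U-4)*(4*U+1) := by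
    have : (2*U^3*w - 3*U^2*(1+3*U))^2 = U^3*(U+1)^2*(9*U-4)*(4*U+1) := by
      linear_combination (4*U^3) * hQ
    have h5 : U^2 * (2*U^2*w - 3*U*(1+3*U))^2 = U^2 * (U*(U+1)^2*(9*U-4)*(4*U+1)) := by
      linear_combination this
    have h6 := mul_left_cancel₀ (pow_ne_zero 2 hU0) h5
    rw [div_pow, div_eq_iff (pow_ne_zero 2 hU1'), h6]; ring
  have hZ := hE15 (36*U) (36*((2*U^2*w - 3*U*(1+3*U))/(U+1))) (by
    linear_combination (1296 : ℚ) * hZ2)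
  rcases hZ with h | h | h | h | h
  · exact absurd (by linarith : U = 0) hU0
  · have hU : U = -1/4 := by linarith
    subst hU
    have hw : w = -3/2 := by
      have : (w + 3/2)^2 = 0 := by linear_combination (-64 : ℚ) * hQ
      have := pow_eq_zero_iff (two_ne_zero) |>.mp this
      linarith
    subst hw
    apply five_dvd_of_rel c4 Δ (-32) (29^3) (by norm_num) (by norm_num)
    have : (-32 : ℚ) * (c4:ℚ)^3 = 5 * 29^3 * Δ := by linear_combination (64/25 : ℚ) * hrel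
    exact_mod_cast this
  · have hU : U = 4/9 := by linarith
    subst hU
    have hw : w = 63/8 := by
      have : (w - 63/8)^2 = 0 := by linear_combination (729/64 : ℚ) * hQ
      have := pow_eq_zero_iff (two_ne_zero) |>.mp this
      linarith
    subst hw
    apply five_dvd_of_rel c4 Δ (32768) (211^3) (by norm_num) (by norm_num)
    have : (32768 : ℚ) * (c4:ℚ)^3 = 5 * 211^3 * Δ := by linear_combination (-262144/25 : ℚ) * hrel
    exact_mod_cast this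
  · have hU : U = -1/9 := by linarith
    subst hU
    have hw : w = -29 := by
      have : (w - 11) * (w + 29) = 0 := by linear_combination (-729 : ℚ) * hQ
      rcases mul_eq_zero.mp this with h | h
      · exact absurd (by linarith) hw11
      · linarith
    subst hw
    apply five_dvd_of_rel2 c4 Δ (-8) (241^3) (by norm_num) (by norm_num)
    have : (-8 : ℚ) * (c4:ℚ)^3 = 25 * 241^3 * Δ := by linear_combination (1/5 : ℚ) * hrel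
    exact_mod_cast this
  · have hU : U = 1 := by linarith
    subst hU
    have hw : w = 1 := by
      have : (w - 11) * (w - 1) = 0 := by linear_combination hQ
      rcases mul_eq_zero.mp this with h | h
      · exact absurd (by linarith) hw11
      · linarith
    subst hw
    apply five_dvd_of_rel2 c4 Δ (-2) 1 (by norm_num) (by norm_num)
    have : (-2 : ℚ) * (c4:ℚ)^3 = 25 * 1 * Δ := by linear_combination (1/5 : ℚ) * hrel
    exact_mod_cast this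

end Fermat.Agent.S51
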