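import Fermat.Agent.S51.Galois
import Fermat.Agent.S51.Moduli

set_option autoImplicit false

namespace Fermat.Agent.S51

open WeierstrassCurve WeierstrassCurve.Affine WeierstrassCurve.Affine.Point

local notation "Kbar" => AlgebraicClosure ℚ

theorem main
    (hE15 : ∀ x y : ℚ, y^2 = x*(x+9)*(x-16) → x = 0 ∨ x = -9 ∨ x = 16 ∨ x = -4 ∨ x = 36)
    (W : WeierstrassCurve ℤ) (hΔ : W.Δ ≠ 0) (hW : W.IsSemistableModel) :
    W.ModRepIsIrreducible 3 ∨ W.ModRepIsIrreducible 5 := by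
  by_contra hcon
  rw [not_or] at hcon
  obtain ⟨hn3, hn5⟩ := hcon
  set E0 : WeierstrassCurve.Affine ℚ := W.map (Int.castRingHom ℚ) with hE0
  have hb2 : (E0⁄Kbar).b₂ = ((W.b₂ : ℚ) : Kbar) := by
    simp [hE0, WeierstrassCurve.baseChange, WeierstrassCurve.map_b₂]
  have hb4 : (E0⁄Kbar).b₄ = ((W.b₄ : ℚ) : Kbar) := by
    simp [hE0, WeierstrassCurve.baseChange, WeierstrassCurve.map_b₄]
  have hb6 : (E0⁄Kbar).b₆ = ((W.b₆ : ℚ) : Kbar) := by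
    simp [hE0, WeierstrassCurve.baseChange, WeierstrassCurve.map_b₆]
  have hb8 : (E0⁄Kbar).b₈ = ((W.b₈ : ℚ) : Kbar) := by
    simp [hE0, WeierstrassCurve.baseChange, WeierstrassCurve.map_b₈]
  have hΔE : (E0⁄Kbar).Δ ≠ 0 := by
    have : (E0⁄Kbar).Δ = ((W.Δ : ℚ) : Kbar) := by
      simp [hE0, WeierstrassCurve.baseChange, WeierstrassCurve.map_Δ]
    rw [this]
    exact_mod_cast hΔ
  -- stable lines
  have h3 : ∃ N : Submodule (ZMod 3) (Submodule.torsionBy ℤ (E0⁄Kbar).Point (3:ℕ)),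
      IsGaloisStable ℚ N ∧ N ≠ ⊥ ∧ N ≠ ⊤ := by
    by_contra hno
    apply hn3
    refine ⟨?_, fun N hN => ?_⟩
    · obtain ⟨P, hP0, hP3⟩ := exists_three (E0⁄Kbar) hΔE
      exact ⟨⟨⟨P, by simpa using hP3⟩, 0, fun h => hP0 (congrArg Subtype.val h)⟩⟩
    · by_contra hc
      rw [not_or] at hc
      exact hno ⟨N, hN, hc.1, hc.2⟩
  have h5 : ∃ N : Submodule (ZMod 5) (Submodule.torsionBy ℤ (E0⁄Kbar).Point (5:ℕ)),
      IsGaloisStable ℚ N ∧ N ≠ ⊥ ∧ N ≠ ⊤ := by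
    by_contra hno
    apply hn5
    refine ⟨?_, fun N hN => ?_⟩
    · obtain ⟨P, hP0, hP5⟩ := exists_five (E0⁄Kbar) hΔE
      exact ⟨⟨⟨P, by simpa using hP5⟩, 0, fun h => hP0 (congrArg Subtype.val h)⟩⟩
    · by_contra hc
      rw [not_or] at hc
      exact hno ⟨N, hN, hc.1, hc.2⟩
  obtain ⟨N3, hst3, h30, h31⟩ := h3
  obtain ⟨N5, hst5, h50, h51⟩ := h5
  obtain ⟨x0, hx0⟩ := data3 E0 N3 hst3 h30 h31
  obtain ⟨s1, s2, x1, x2, hs1, hs2, hne, hf1, e12, e21⟩ := data5 E0 N5 hst5 h50 h51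
  rw [eq_ratCast] at hx0 hs1 hs2
  simp only [p3, fX, gX, hb2, hb4, hb6, hb8] at hx0 hf1 e12 e21
  have h8 : 4 * ((W.b₈ : ℚ) : Kbar) = ((W.b₂ : ℚ) : Kbar) * ((W.b₆ : ℚ) : Kbar)
      - ((W.b₄ : ℚ) : Kbar)^2 := by
    have := W.b_relation
    exact_mod_cast congrArg (fun z : ℤ => (z : ℚ)) this
  set D : ℚ := s1^2 - 4*s2 with hD
  set U : ℚ := (x0^2 - s1*x0 + s2)/D with hU
  set w : ℚ := (2*(W.b₄:ℚ) + (W.b₂:ℚ)*s1 + 6*s1^2 - 12*s2)/D - 2 with hw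
  set Y : ℚ := (2*x0 - s1)*((W.b₂:ℚ) + 6*s1)/D with hY
  obtain ⟨hD0, r1, r2, r3, r4⟩ := moduli_rel (K := Kbar) _ _ _ _ (x0 : Kbar) x1 x2 h8 e12 e21 hne hf1 hx0
    (s1 : Kbar) (s2 : Kbar) (D : Kbar) (U : Kbar) (w : Kbar) (Y : Kbar) hs1 hs2
    (by rw [hD]; push_cast; ring) (by rw [hU]; push_cast; ring) (by rw [hw]; push_cast; ring)
    (by rw [hY]; push_cast; ring)
  have r1' : (1+U)*Y + (1+3*U)*w = -6*U^2 := by exact_mod_cast r1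
  have r2' : Y^2 = (4*U+1)*(w^2+4) := by exact_mod_cast r2
  have r3' : ((W.c₄ : ℤ) : ℚ) = D*((w-11)^2+10*(w-11)+5) := by
    have : ((W.b₂:ℚ))^2 - 24*(W.b₄:ℚ) = D*((w-11)^2+10*(w-11)+5) := by exact_mod_cast r3
    rw [← this, WeierstrassCurve.c₄]; push_cast; ring
  have r4' : ((W.Δ : ℤ) : ℚ) = D^3*(w-11) := by
    have : -((W.b₂:ℚ))^2*(W.b₈:ℚ) - 8*(W.b₄:ℚ)^3 - 27*(W.b₆:ℚ)^2 + 9*(W.b₂:ℚ)*(W.b₄:ℚ)*(W.b₆:ℚ)
        = D^3*(w-11) := by exact_mod_cast r4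
    rw [← this, WeierstrassCurve.Δ]; push_cast; ring
  obtain ⟨hc4, hd⟩ := endgame hE15 U w Y D W.c₄ W.Δ hΔ r1' r2' r3' r4'
  exact hW 5 (by norm_num) (by exact_mod_cast hd) (by exact_mod_cast hc4)

end Fermat.Agent.S51
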