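import Mathlib

set_option autoImplicit false

namespace Fermat.Agent.S51.X015

/-- Key algebraic lemma: the second square comes for free. -/
theorem exists_sq_of (X Y X' Y' x : ℤ) (h1 : X * X' = 9 * (Y * Y'))
    (h2 : X ^ 2 + X' ^ 2 = Y ^ 2 + Y' ^ 2) (h3 : X ^ 2 - Y ^ 2 = x ^ 2) (hY' : Y' ≠ 0) :
    ∃ w : ℤ, X ^ 2 - 81 * Y ^ 2 = w ^ 2 := by
  have key : Y' ^ 2 * (X ^ 2 - 81 * Y ^ 2) = (X * x) ^ 2 := by
    linear_combination (X * X' + 9 * Y * Y') * h1 - X ^ 2 * h2 + X ^ 2 * h3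
  have hdvd : Y' ∣ X * x := by
    rw [← Int.pow_dvd_pow_iff two_ne_zero]
    exact ⟨_, key.symm⟩
  obtain ⟨w, hw⟩ := hdvd
  refine ⟨w, ?_⟩
  have h4 : Y' ^ 2 * (X ^ 2 - 81 * Y ^ 2) = Y' ^ 2 * w ^ 2 := by
    rw [key, hw]; ring
  exact mul_left_cancel₀ (pow_ne_zero 2 hY') h4

theorem sq_mod_eight (z : ℤ) : z ^ 2 % 8 = 0 ∨ z ^ 2 % 8 = 1 ∨ z ^ 2 % 8 = 4 := by
  have h : z % 8 = 0 ∨ z % 8 = 1 ∨ z % 8 = 2 ∨ z % 8 = 3 ∨ z % 8 = 4 ∨ z % 8 = 5 ∨ z % 8 = 6 ∨
      z % 8 = 7 := by omega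
  rcases h with h | h | h | h | h | h | h | h <;> simp [pow_two, Int.mul_emod, h]

theorem sq_mod_eight_of_odd {z : ℤ} (hz : z % 2 = 1) : z ^ 2 % 8 = 1 := by
  have h : z % 8 = 1 ∨ z % 8 = 3 ∨ z % 8 = 5 ∨ z % 8 = 7 := by omega
  rcases h with h | h | h | h <;> simp [pow_two, Int.mul_emod, h]

theorem sq_mod_four_of_even {z : ℤ} (hz : z % 2 = 0) : z ^ 2 % 4 = 0 := by
  have h : z % 4 = 0 ∨ z % 4 = 2 := by omega
  rcases h with h | h <;> simp [pow_two, Int.mul_emod, h]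

/-- `5 m² - 4 n²` is not a square when `m` is odd and `n` even. -/
theorem not_sq_aux {m n x : ℤ} (hm : m % 2 = 1) (hn : n % 2 = 0)
    (h : x ^ 2 = 5 * m ^ 2 - 4 * n ^ 2) : False := by
  have h1 := sq_mod_eight_of_odd hm
  have h2 := sq_mod_four_of_even hn
  have h3 := sq_mod_eight x
  omega

theorem odd_sq_sub_sq {m n : ℤ} (hpar : m % 2 = 0 ∧ n % 2 = 1 ∨ m % 2 = 1 ∧ n % 2 = 0) :
    (m ^ 2 - n ^ 2) % 2 = 1 := by
  rcases hpar with ⟨h1, h2⟩ | ⟨h1, h2⟩ <;> simp [pow_two, Int.sub_emod, Int.mul_emod, h1, h2]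

/-- coprimality of `p` and `q`. -/
theorem isCoprime_pq {m n c : ℤ} (hmn : IsCoprime m n)
    (hpar : m % 2 = 0 ∧ n % 2 = 1 ∨ m % 2 = 1 ∧ n % 2 = 0)
    (hpq : (c - n ^ 2) * (c - m ^ 2) = -80 * (m * n) ^ 2) :
    IsCoprime (c - n ^ 2) (c - m ^ 2) := by
  rw [Int.isCoprime_iff_gcd_eq_one]
  apply Nat.Coprime.symm
  apply Nat.Coprime.symm
  show Nat.Coprime _ _
  apply Nat.coprime_of_dvd
  intro k hk hkp hkq
  have hkp' : (k : ℤ) ∣ c - n ^ 2 := Int.natCast_dvd.2 hkp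
  have hkq' : (k : ℤ) ∣ c - m ^ 2 := Int.natCast_dvd.2 hkq
  have hkprime : Prime (k : ℤ) := Nat.prime_iff_prime_int.1 hk
  have hsub : (k : ℤ) ∣ m ^ 2 - n ^ 2 := by
    have := dvd_sub hkp' hkq'
    have h2 : c - n ^ 2 - (c - m ^ 2) = m ^ 2 - n ^ 2 := by ring
    rwa [h2] at this
  have hkm : ¬ (k : ℤ) ∣ m := by
    intro hd
    have h1 : (k : ℤ) ∣ n ^ 2 := by
      have := dvd_sub (dvd_pow hd two_ne_zero) hsub
      have h2 : m ^ 2 - (m ^ 2 - n ^ 2) = n ^ 2 := by ring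
      rwa [h2] at this
    exact hkprime.not_isUnit (hmn.isUnit_of_dvd' hd (hkprime.dvd_of_dvd_pow h1))
  have hkn : ¬ (k : ℤ) ∣ n := by
    intro hd
    have h1 : (k : ℤ) ∣ m ^ 2 := by
      have := dvd_add hsub (dvd_pow hd two_ne_zero)
      have h2 : m ^ 2 - n ^ 2 + n ^ 2 = m ^ 2 := by ring
      rwa [h2] at this
    exact hkprime.not_isUnit (hmn.isUnit_of_dvd' (hkprime.dvd_of_dvd_pow h1) hd)
  have hcm : IsCoprime (k : ℤ) m := (hkprime.irreducible.coprime_iff_not_dvd).2 hkm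
  have hcn : IsCoprime (k : ℤ) n := (hkprime.irreducible.coprime_iff_not_dvd).2 hkn
  have hc : IsCoprime ((k : ℤ) * k) ((m * n) ^ 2) :=
    IsCoprime.pow_right (IsCoprime.mul_left (hcm.mul_right hcn) (hcm.mul_right hcn))
  have hdvd : (k : ℤ) * k ∣ -80 * (m * n) ^ 2 := hpq ▸ mul_dvd_mul hkp' hkq'
  have h80 : (k : ℤ) * k ∣ -80 := hc.dvd_of_dvd_mul_right hdvd
  have h80' : k * k ∣ 80 := by
    have : ((k * k : ℕ) : ℤ) ∣ 80 := by
      push_cast
      exact (dvd_neg).1 h80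
    exact_mod_cast this
  have hk8 : k ≤ 8 := by
    by_contra hlt
    have h1 : k * k ≤ 80 := Nat.le_of_dvd (by norm_num) h80'
    nlinarith
  have hodd := odd_sq_sub_sq hpar
  interval_cases k
  · norm_num at hk
  · norm_num at hk
  · omega
  · norm_num at h80'
  · norm_num at hk
  · norm_num at h80'
  · norm_num at hk
  · norm_num at h80'
  · norm_num at hk

/-- One of `±p`, `±q` is a square. -/
theorem sq_cases {p q z : ℤ} (hc : IsCoprime p q) (h : p * q = -5 * z ^ 2) :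
    (∃ x, p = x ^ 2) ∨ (∃ x, -p = x ^ 2) ∨ (∃ x, q = x ^ 2) ∨ (∃ x, -q = x ^ 2) := by
  have h5 : Prime (5 : ℤ) := by
    have := Nat.prime_iff_prime_int.1 Nat.prime_five
    simpa using this
  have hd : (5 : ℤ) ∣ p * q := ⟨-z ^ 2, by rw [h]; ring⟩
  rcases h5.dvd_or_dvd hd with ⟨p', rfl⟩ | ⟨q', rfl⟩
  · have hc' : IsCoprime (-q) p' := (hc.of_mul_left_right).symm.neg_left
    have heq : -q * p' = z ^ 2 := by
      have : (5 : ℤ) * (-q * p') = 5 * z ^ 2 := by linear_combination -h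
      exact mul_left_cancel₀ (by norm_num) this
    obtain ⟨y, hy | hy⟩ := Int.sq_of_isCoprime hc' heq
    · exact Or.inr (Or.inr (Or.inr ⟨y, hy⟩))
    · exact Or.inr (Or.inr (Or.inl ⟨y, by linear_combination -hy⟩))
  · have hc' : IsCoprime (-p) q' := (hc.of_mul_right_right).neg_left
    have heq : -p * q' = z ^ 2 := by
      have : (5 : ℤ) * (-p * q') = 5 * z ^ 2 := by linear_combination -h
      exact mul_left_cancel₀ (by norm_num) this
    obtain ⟨y, hy | hy⟩ := Int.sq_of_isCoprime hc' heq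
    · exact Or.inr (Or.inl ⟨y, hy⟩)
    · exact Or.inl ⟨y, by linear_combination -hy⟩

theorem three_not_dvd {U e V : ℤ} (hcop : IsCoprime U e) (h1 : U ^ 2 - e ^ 2 = V ^ 2) :
    ¬ (3 : ℤ) ∣ U := by
  intro h3
  have hz : ∀ a b : ZMod 3, a ^ 2 + b ^ 2 = 0 → a = 0 := by decide
  have hU : ((U : ℤ) : ZMod 3) = 0 := (ZMod.intCast_zmod_eq_zero_iff_dvd U 3).2 (by exact_mod_cast h3)
  have h2 : ((e : ℤ) : ZMod 3) ^ 2 + ((V : ℤ) : ZMod 3) ^ 2 = 0 := by
    have := congrArg (Int.cast : ℤ → ZMod 3) h1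
    push_cast at this
    rw [hU] at this
    linear_combination -this
  have he : (3 : ℤ) ∣ e := by
    have := (ZMod.intCast_zmod_eq_zero_iff_dvd e 3).1 (hz _ _ h2)
    exact_mod_cast this
  have := hcop.isUnit_of_dvd' h3 he
  norm_num [Int.isUnit_iff] at this

/-- The descent step for coprime solutions. -/
theorem descent_coprime (U e V W : ℤ) (hU : 0 < U) (he : e ≠ 0) (hcop : IsCoprime U e)
    (h1 : U ^ 2 - e ^ 2 = V ^ 2) (h2 : U ^ 2 - 81 * e ^ 2 = W ^ 2) :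
    ∃ U' e' V' W' : ℤ, e' ≠ 0 ∧ U' ^ 2 < U ∧ U' ^ 2 - e' ^ 2 = V' ^ 2 ∧
      U' ^ 2 - 81 * e' ^ 2 = W' ^ 2 := by
  have h3U := three_not_dvd hcop h1
  have hP1 : PythagoreanTriple e V U := by
    unfold PythagoreanTriple; linear_combination -h1
  have hP2 : PythagoreanTriple (9 * e) W U := by
    unfold PythagoreanTriple; linear_combination -h2
  have hg1 : Int.gcd e V = 1 := by
    rw [← Int.isCoprime_iff_gcd_eq_one]
    have h4 : IsCoprime e (V ^ 2) := by
      rw [← h1]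
      have : IsCoprime e (U ^ 2 + e * (-e)) := (IsCoprime.add_mul_left_right_iff).2 hcop.symm.pow_right
      have h5 : U ^ 2 + e * (-e) = U ^ 2 - e ^ 2 := by ring
      rwa [h5] at this
    exact (IsCoprime.pow_right_iff (by norm_num)).1 h4
  have h9 : IsCoprime (9 * e) U := by
    have h3 : IsCoprime (3 : ℤ) U := by
      have hp3 : Prime (3 : ℤ) := Int.prime_three
      exact (hp3.irreducible.coprime_iff_not_dvd).2 h3U
    have : IsCoprime ((3 : ℤ) * 3 * e) U := (h3.mul_left h3).mul_left hcop.symm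
    have h5 : (3 : ℤ) * 3 * e = 9 * e := by ring
    rwa [h5] at this
  have hg2 : Int.gcd (9 * e) W = 1 := by
    rw [← Int.isCoprime_iff_gcd_eq_one]
    have h4 : IsCoprime (9 * e) (W ^ 2) := by
      rw [← h2]
      have : IsCoprime (9 * e) (U ^ 2 + (9 * e) * (-(9 * e))) :=
        (IsCoprime.add_mul_left_right_iff).2 h9.pow_right
      have h5 : U ^ 2 + (9 * e) * (-(9 * e)) = U ^ 2 - 81 * e ^ 2 := by ring
      rwa [h5] at this
    exact (IsCoprime.pow_right_iff (by norm_num)).1 h4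
  obtain ⟨m, n, hxy, hz, hmn, hpar⟩ := PythagoreanTriple.coprime_classification.1 ⟨hP1, hg1⟩
  obtain ⟨m', n', hxy', hz', hmn', hpar'⟩ :=
    PythagoreanTriple.coprime_classification.1 ⟨hP2, hg2⟩
  have hUmn : U = m ^ 2 + n ^ 2 := by
    rcases hz with h | h
    · exact h
    · exfalso; nlinarith [sq_nonneg m, sq_nonneg n]
  have hUmn' : U = m' ^ 2 + n' ^ 2 := by
    rcases hz' with h | h
    · exact h
    · exfalso; nlinarith [sq_nonneg m', sq_nonneg n']
  have hS : m ^ 2 + n ^ 2 = m' ^ 2 + n' ^ 2 := by rw [← hUmn, ← hUmn']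
  have hodd := odd_sq_sub_sq hpar
  have hodd' := odd_sq_sub_sq hpar'
  rcases hxy with ⟨hx, -⟩ | ⟨hx, -⟩ <;> rcases hxy' with ⟨hx', -⟩ | ⟨hx', -⟩
  · -- `e` odd: impossible mod 8
    exfalso
    rw [hx] at hx'
    have e1 : m' ^ 2 = 5 * m ^ 2 - 4 * n ^ 2 := by linarith
    have e2 : n' ^ 2 = 5 * n ^ 2 - 4 * m ^ 2 := by linarith
    rcases hpar with ⟨hm, hn⟩ | ⟨hm, hn⟩
    · exact not_sq_aux hn hm e2
    · exact not_sq_aux hm hn e1
  · exfalso
    have : 9 * e = 2 * (m' * n') := by rw [hx']; ring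
    omega
  · exfalso
    have : e = 2 * (m * n) := by rw [hx]; ring
    omega
  · -- main case
    have hP : m' * n' = 9 * (m * n) := by
      have : 2 * (m' * n') = 2 * (9 * (m * n)) := by
        rw [hx] at hx'; linear_combination -hx'
      exact mul_left_cancel₀ (by norm_num) this
    have hm0 : m ≠ 0 := by rintro rfl; apply he; rw [hx]; ring
    have hn0 : n ≠ 0 := by rintro rfl; apply he; rw [hx]; ring
    have hm'0 : m' ≠ 0 := by
      rintro rfl
      have : m * n = 0 := by linarith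
      rcases mul_eq_zero.1 this with h | h
      · exact hm0 h
      · exact hn0 h
    have hn'0 : n' ≠ 0 := by
      rintro rfl
      have : m * n = 0 := by linarith
      rcases mul_eq_zero.1 this with h | h
      · exact hm0 h
      · exact hn0 h
    have hpq : (m' ^ 2 - n ^ 2) * (m' ^ 2 - m ^ 2) = -80 * (m * n) ^ 2 := by
      linear_combination (-m' ^ 2) * hS - (m' * n' + 9 * m * n) * hP
    have hc : IsCoprime (m' ^ 2 - n ^ 2) (m' ^ 2 - m ^ 2) :=
      isCoprime_pq (Int.isCoprime_iff_gcd_eq_one.2 hmn) hpar hpq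
    have hpq' : (m' ^ 2 - n ^ 2) * (m' ^ 2 - m ^ 2) = -5 * (4 * m * n) ^ 2 := by
      rw [hpq]; ring
    have hm'pos : 0 < m' ^ 2 := by positivity
    have hn'pos : 0 < n' ^ 2 := by positivity
    rcases sq_cases hc hpq' with ⟨x, hx1⟩ | ⟨x, hx1⟩ | ⟨x, hx1⟩ | ⟨x, hx1⟩
    · obtain ⟨w, hw⟩ := exists_sq_of m' n n' m x (by linear_combination hP)
        (by linear_combination -hS) hx1 hm0
      exact ⟨m', n, x, w, hn0, by rw [hUmn']; linarith, hx1, hw⟩
    · obtain ⟨w, hw⟩ := exists_sq_of n' m m' n x (by linear_combination hP)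
        (by linear_combination -hS) (by linear_combination hx1 - hS) hn0
      exact ⟨n', m, x, w, hm0, by rw [hUmn']; linarith, by linear_combination hx1 - hS, hw⟩
    · obtain ⟨w, hw⟩ := exists_sq_of m' m n' n x (by linear_combination hP)
        (by linear_combination -hS) hx1 hn0
      exact ⟨m', m, x, w, hm0, by rw [hUmn']; linarith, hx1, hw⟩
    · obtain ⟨w, hw⟩ := exists_sq_of n' n m' m x (by linear_combination hP)
        (by linear_combination -hS) (by linear_combination hx1 - hS) hm0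
      exact ⟨n', n, x, w, hn0, by rw [hUmn']; linarith, by linear_combination hx1 - hS, hw⟩

/-- There is no integer solution with `e ≠ 0`. -/
theorem no_sol_aux : ∀ (k : ℕ) (U e V W : ℤ), U.natAbs = k → e ≠ 0 → U ^ 2 - e ^ 2 = V ^ 2 →
    U ^ 2 - 81 * e ^ 2 = W ^ 2 → False := by
  intro k
  induction k using Nat.strong_induction_on with
  | _ k ih =>
    intro U e V W hk he h1 h2
    -- divide by the gcd
    have hgpos : 0 < Int.gcd U e := Int.gcd_pos_of_ne_zero_right U he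
    obtain ⟨g, U₀, e₀, hg, hcop, hU₀, he₀⟩ := Int.exists_gcd_one' hgpos
    have hg0 : (g : ℤ) ≠ 0 := by exact_mod_cast hg.ne'
    have he₀0 : e₀ ≠ 0 := by rintro rfl; apply he; rw [he₀]; ring
    have hgV : (g : ℤ) ∣ V := by
      rw [← Int.pow_dvd_pow_iff two_ne_zero, ← h1, hU₀, he₀]
      exact ⟨U₀ ^ 2 - e₀ ^ 2, by ring⟩
    have hgW : (g : ℤ) ∣ W := by
      rw [← Int.pow_dvd_pow_iff two_ne_zero, ← h2, hU₀, he₀]
      exact ⟨U₀ ^ 2 - 81 * e₀ ^ 2, by ring⟩
    obtain ⟨V₀, hV₀⟩ := hgV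
    obtain ⟨W₀, hW₀⟩ := hgW
    have h1' : U₀ ^ 2 - e₀ ^ 2 = V₀ ^ 2 := by
      have : (g : ℤ) ^ 2 * (U₀ ^ 2 - e₀ ^ 2) = (g : ℤ) ^ 2 * V₀ ^ 2 := by
        rw [hU₀, he₀, hV₀] at h1; linear_combination h1
      exact mul_left_cancel₀ (pow_ne_zero 2 hg0) this
    have h2' : U₀ ^ 2 - 81 * e₀ ^ 2 = W₀ ^ 2 := by
      have : (g : ℤ) ^ 2 * (U₀ ^ 2 - 81 * e₀ ^ 2) = (g : ℤ) ^ 2 * W₀ ^ 2 := by
        rw [hU₀, he₀, hW₀] at h2; linear_combination h2
      exact mul_left_cancel₀ (pow_ne_zero 2 hg0) this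
    have hU₀0 : U₀ ≠ 0 := by
      rintro rfl
      have : e₀ ^ 2 = 0 := by nlinarith [sq_nonneg V₀, sq_nonneg e₀]
      exact he₀0 (pow_eq_zero_iff two_ne_zero |>.1 this)
    have habs : 0 < |U₀| := abs_pos.2 hU₀0
    have hcop' : IsCoprime |U₀| e₀ := by
      have := Int.isCoprime_iff_gcd_eq_one.2 hcop
      rcases abs_choice U₀ with h | h
      · rwa [h]
      · rw [h]; exact this.neg_left
    obtain ⟨U', e', V', W', he', hlt, h1'', h2''⟩ := descent_coprime |U₀| e₀ V₀ W₀ habs he₀0 hcop'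
      (by rw [sq_abs]; exact h1') (by rw [sq_abs]; exact h2')
    refine ih U'.natAbs ?_ U' e' V' W' rfl he' h1'' h2''
    -- `|U'| ≤ U'^2 < |U₀| ≤ |U| = k`
    have h3 : (U'.natAbs : ℤ) < k := by
      rw [← hk, Int.natCast_natAbs, Int.natCast_natAbs]
      have h4 : |U'| ≤ U' ^ 2 := by
        rw [← sq_abs]
        rcases eq_or_ne U' 0 with rfl | hne
        · simp
        · have : 1 ≤ |U'| := Int.one_le_abs hne
          nlinarith
      have h5 : |U₀| ≤ |U| := by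
        rw [hU₀, abs_mul]
        have : (1 : ℤ) ≤ |(g : ℤ)| := Int.one_le_abs hg0
        nlinarith [abs_nonneg U₀]
      linarith
    exact_mod_cast h3

theorem no_sol_int (U e V W : ℤ) (he : e ≠ 0) (h1 : U ^ 2 - e ^ 2 = V ^ 2)
    (h2 : U ^ 2 - 81 * e ^ 2 = W ^ 2) : False :=
  no_sol_aux _ U e V W rfl he h1 h2

/-- Rational version. -/
theorem no_sol_rat (s v w : ℚ) (h1 : s ^ 2 - 1 = v ^ 2) (h2 : s ^ 2 - 81 = w ^ 2) : False := by
  have hs : (s.num : ℚ) = s * s.den := (Rat.mul_den_eq_num s).symm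
  have hv : (v.num : ℚ) = v * v.den := (Rat.mul_den_eq_num v).symm
  have hw : (w.num : ℚ) = w * w.den := (Rat.mul_den_eq_num w).symm
  apply no_sol_int (s.num * v.den * w.den) (s.den * v.den * w.den) (v.num * s.den * w.den)
    (w.num * s.den * v.den)
  · have := s.den_ne_zero
    have := v.den_ne_zero
    have := w.den_ne_zero
    positivity
  · have : ((s.num * v.den * w.den : ℤ) : ℚ) ^ 2 - ((s.den * v.den * w.den : ℤ) : ℚ) ^ 2 =
        ((v.num * s.den * w.den : ℤ) : ℚ) ^ 2 := by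
      push_cast
      rw [hs, hv]
      linear_combination ((s.den : ℚ) * v.den * w.den) ^ 2 * h1
    exact_mod_cast this
  · have : ((s.num * v.den * w.den : ℤ) : ℚ) ^ 2 - 81 * ((s.den * v.den * w.den : ℤ) : ℚ) ^ 2 =
        ((w.num * s.den * v.den : ℤ) : ℚ) ^ 2 := by
      push_cast
      rw [hs, hw]
      linear_combination ((s.den : ℚ) * v.den * w.den) ^ 2 * h2
    exact_mod_cast this

/-- Rational points of `Y² = X (X - 1) (X - 81)` have `Y = 0`. -/
theorem curveB (X Y : ℚ) (h : Y ^ 2 = X * (X - 1) * (X - 81)) : Y = 0 := by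
  by_contra hY
  apply no_sol_rat ((X ^ 2 - 81) / (2 * Y)) ((X ^ 2 - 2 * X + 81) / (2 * Y))
    ((X ^ 2 - 162 * X + 81) / (2 * Y))
  · field_simp
    linear_combination (-4 : ℚ) * h
  · field_simp
    linear_combination (-324 : ℚ) * h

/-- Rational points of `y² = x (x + 9) (x - 16)`. -/
theorem rational_points (x y : ℚ) (h : y ^ 2 = x * (x + 9) * (x - 16)) :
    x = 0 ∨ x = -9 ∨ x = 16 ∨ x = -4 ∨ x = 36 := by
  by_cases h16 : x = 16
  · exact Or.inr (Or.inr (Or.inl h16))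
  have ht : x - 16 ≠ 0 := sub_ne_zero.2 h16
  have hB := curveB (x * (x + 9) / (x - 16)) (y * (400 - (x - 16) ^ 2) / (x - 16) ^ 2) (by
    field_simp
    linear_combination ((400 - (x - 16) ^ 2) ^ 2) * h)
  rw [div_eq_zero_iff] at hB
  rcases hB with hB | hB
  · rcases mul_eq_zero.1 hB with hy | hx
    · rw [hy] at h
      have h0 : x * (x + 9) * (x - 16) = 0 := by linear_combination -h
      rcases mul_eq_zero.1 h0 with h1 | h1
      · rcases mul_eq_zero.1 h1 with h2 | h2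
        · exact Or.inl h2
        · exact Or.inr (Or.inl (by linear_combination h2))
      · exact absurd h1 ht
    · have h0 : (x + 4) * (x - 36) = 0 := by linear_combination -hx
      rcases mul_eq_zero.1 h0 with h1 | h1
      · exact Or.inr (Or.inr (Or.inr (Or.inl (by linear_combination h1))))
      · exact Or.inr (Or.inr (Or.inr (Or.inr (by linear_combination h1))))
  · exact absurd (pow_eq_zero_iff two_ne_zero |>.1 hB) ht

end Fermat.Agent.S51.X015
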