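import Mathlib

set_option autoImplicit false

namespace Fermat.Agent.S51

open WeierstrassCurve WeierstrassCurve.Affine

variable {F : Type*} [Field F] (E : WeierstrassCurve.Affine F)

/-- the two-torsion cubic -/
def fX (x : F) : F := 4*x^3 + E.b₂*x^2 + 2*E.b₄*x + E.b₆

/-- numerator of the duplication formula -/
def gX (x : F) : F := x^4 - E.b₄*x^2 - 2*E.b₆*x - E.b₈

/-- the three-division polynomial -/
def p3 (x : F) : F := 3*x^4 + E.b₂*x^3 + 3*E.b₄*x^2 + 3*E.b₆*x + E.b₈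

/-- the reduced four-division polynomial -/
def q4 (x : F) : F := 2*x^6 + E.b₂*x^5 + 5*E.b₄*x^4 + 10*E.b₆*x^3 + 10*E.b₈*x^2
  + (E.b₂*E.b₈ - E.b₄*E.b₆)*x + (E.b₄*E.b₈ - E.b₆^2)

/-- the five-division polynomial -/
def p5 (x : F) : F := q4 E x * fX E x ^ 2 - p3 E x ^ 3

theorem gX_sub (x : F) : gX E x - x * fX E x = - p3 E x := by
  simp only [gX, fX, p3]; ring

theorem fX_eq {x y : F} (h : E.Equation x y) :
    fX E x = (y - E.negY x y)^2 := by
  rw [Affine.equation_iff] at h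
  simp only [fX, Affine.negY, WeierstrassCurve.b₂, WeierstrassCurve.b₄, WeierstrassCurve.b₆]
  linear_combination (-4 : F) * h

theorem fX_ne_zero {x y : F} (h : E.Equation x y) (hy : y ≠ E.negY x y) :
    fX E x ≠ 0 := by
  rw [fX_eq E h]
  exact pow_ne_zero 2 (sub_ne_zero.mpr hy)

theorem fX_eq_zero {x y : F} (h : E.Equation x y) (hy : y = E.negY x y) :
    fX E x = 0 := by
  rw [fX_eq E h, ← hy]; ring

theorem fX_eq_zero_iff {x y : F} (h : E.Equation x y) :
    fX E x = 0 ↔ y = E.negY x y := by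
  constructor
  · intro hf
    by_contra hy
    exact fX_ne_zero E h hy hf
  · exact fX_eq_zero E h

/-- on the curve, `p3` in terms of the partial derivatives -/
theorem p3_eq {x y : F} (h : E.Equation x y) :
    p3 E x = -(3*x^2 + 2*E.a₂*x + E.a₄ - E.a₁*y)^2
      - E.a₁*(3*x^2 + 2*E.a₂*x + E.a₄ - E.a₁*y)*(y - E.negY x y)
      + (E.a₂ + 3*x)*(y - E.negY x y)^2 := by
  rw [Affine.equation_iff] at h
  simp only [p3, Affine.negY, WeierstrassCurve.b₂, WeierstrassCurve.b₄, WeierstrassCurve.b₆,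
    WeierstrassCurve.b₈]
  linear_combination (-(E.a₁^2 + 4*E.a₂ + 12*x)) * h

theorem fX_ne_zero_of_p3 {x y : F} (h : E.Nonsingular x y) (hp : p3 E x = 0) :
    fX E x ≠ 0 := by
  intro hf
  have hy : y = E.negY x y := (fX_eq_zero_iff E h.1).mp hf
  have h1 := p3_eq E h.1
  rw [hp, ← hy] at h1
  have h2 : (3*x^2 + 2*E.a₂*x + E.a₄ - E.a₁*y)^2 = 0 := by linear_combination h1
  have h3 : 3*x^2 + 2*E.a₂*x + E.a₄ - E.a₁*y = 0 := by
    exact pow_eq_zero_iff (two_ne_zero) |>.mp h2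
  rw [Affine.nonsingular_iff] at h
  rcases h.2 with h4 | h4
  · exact h4 (by linear_combination -h3)
  · exact h4 hy

theorem fX_div (u v : F) (hv : v ≠ 0) :
    fX E (u / v) * v^3 = 4*u^3 + E.b₂*u^2*v + 2*E.b₄*u*v^2 + E.b₆*v^3 := by
  simp only [fX]; field_simp

theorem gX_div (u v : F) (hv : v ≠ 0) :
    gX E (u / v) * v^4 = u^4 - E.b₄*u^2*v^2 - 2*E.b₆*u*v^3 - E.b₈*v^4 := by
  simp only [gX]; field_simp

section identities

variable [CharZero F]

theorem ident_F4 (x : F) :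
    4*(gX E x)^3 + E.b₂*(gX E x)^2*(fX E x) + 2*E.b₄*(gX E x)*(fX E x)^2 + E.b₆*(fX E x)^3
      = (q4 E x)^2 := by
  have h8 := E.b_relation
  have hb8 : E.b₈ = (E.b₂*E.b₆ - E.b₄^2)/4 := by
    field_simp; linear_combination h8
  simp only [gX, fX, q4]
  rw [hb8]
  ring

theorem ident_G4 (x : F) :
    (gX E x)^4 - E.b₄*(gX E x)^2*(fX E x)^2 - 2*E.b₆*(gX E x)*(fX E x)^3 - E.b₈*(fX E x)^4
      - x*(fX E x)*(q4 E x)^2 = - p3 E x * p5 E x := by
  have h8 := E.b_relation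
  have hb8 : E.b₈ = (E.b₂*E.b₆ - E.b₄^2)/4 := by
    field_simp; linear_combination h8
  simp only [gX, fX, q4, p3, p5]
  rw [hb8]
  ring

/-- `f (g/f) * f^3 = q4^2` -/
theorem fX_dup {x : F} (hf : fX E x ≠ 0) :
    fX E (gX E x / fX E x) * (fX E x)^3 = (q4 E x)^2 := by
  rw [← ident_F4, fX_div E _ _ hf]

/-- `(g (g/f) - x f (g/f)) * f^4 = - p3 p5` -/
theorem gX_dup {x : F} (hf : fX E x ≠ 0) :
    (gX E (gX E x / fX E x) - x * fX E (gX E x / fX E x)) * (fX E x)^4 = - p3 E x * p5 E x := by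
  rw [← ident_G4, ← ident_F4, ← fX_div E _ _ hf, ← gX_div E _ _ hf]
  ring

end identities

variable [DecidableEq F]

theorem addX_dup {x y : F} (h : E.Equation x y) (hy : y ≠ E.negY x y) :
    E.addX x x (E.slope x x y y) * fX E x = gX E x := by
  rw [Affine.slope_of_Y_ne rfl hy, fX_eq E h]
  have hne : y - E.negY x y ≠ 0 := sub_ne_zero.mpr hy
  rw [Affine.equation_iff] at h
  simp only [Affine.addX]
  field_simp
  simp only [gX, Affine.negY, WeierstrassCurve.b₄, WeierstrassCurve.b₆, WeierstrassCurve.b₈]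
  linear_combination (-(E.a₁^2 + 4*E.a₂ + 8*x)) * h

theorem dbl_of_fX_eq_zero {x y : F} (h : E.Nonsingular x y) (hf : fX E x = 0) :
    Point.some x y h + Point.some x y h = 0 :=
  Point.add_self_of_Y_eq ((fX_eq_zero_iff E h.1).mp hf)

theorem dbl_of_fX_ne_zero {x y : F} (h : E.Nonsingular x y) (hf : fX E x ≠ 0) :
    ∃ (y' : F) (h' : E.Nonsingular (gX E x / fX E x) y'),
      Point.some x y h + Point.some x y h = Point.some (gX E x / fX E x) y' h' := by
  have hy : y ≠ E.negY x y := fun hy => hf (fX_eq_zero E h.1 hy)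
  have hx : E.addX x x (E.slope x x y y) = gX E x / fX E x := by
    rw [eq_div_iff hf]; exact addX_dup E h.1 hy
  have := Point.add_self_of_Y_ne (h₁ := h) hy
  rw [this]
  have hns := Affine.nonsingular_add h h (fun hxy => hy hxy.right)
  refine ⟨E.addY x x y (E.slope x x y y), hx ▸ hns, ?_⟩
  simp only [Point.some.injEq]
  exact ⟨hx, trivial⟩

end Fermat.Agent.S51
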