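import Fermat.Agent.S51.Torsion

set_option autoImplicit false
set_option linter.unusedSectionVars false

namespace Fermat.Agent.S51

open WeierstrassCurve WeierstrassCurve.Affine

variable {F : Type*} [Field F] [DecidableEq F] (E : WeierstrassCurve.Affine F)

theorem exists_point [IsAlgClosed F] [CharZero F] (hΔ : E.Δ ≠ 0) (x : F) :
    ∃ y, E.Nonsingular x y := by
  obtain ⟨s, hs⟩ := IsAlgClosed.exists_pow_nat_eq (fX E x) (n := 2) (by norm_num)
  refine ⟨(s - E.a₁*x - E.a₃)/2, ?_⟩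
  rw [← Affine.equation_iff_nonsingular_of_Δ_ne_zero hΔ, Affine.equation_iff]
  simp only [fX, WeierstrassCurve.b₂, WeierstrassCurve.b₄, WeierstrassCurve.b₆] at hs
  field_simp
  linear_combination hs

theorem eval_Ψ₃ (x : F) : E.Ψ₃.eval x = p3 E x := by
  simp [WeierstrassCurve.Ψ₃, p3]

theorem eval_preΨ₄ (x : F) : E.preΨ₄.eval x = q4 E x := by
  simp [WeierstrassCurve.preΨ₄, q4]

theorem eval_Ψ₂Sq (x : F) : E.Ψ₂Sq.eval x = fX E x := by
  simp [WeierstrassCurve.Ψ₂Sq, fX]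

theorem eval_preΨ'_five (x : F) : (E.preΨ' 5).eval x = p5 E x := by
  have := E.preΨ'_odd 0
  simp only [Nat.zero_add] at this
  norm_num at this
  rw [this]
  simp [eval_Ψ₃, eval_preΨ₄, eval_Ψ₂Sq, p5]

theorem exists_three [IsAlgClosed F] [CharZero F] (hΔ : E.Δ ≠ 0) :
    ∃ P : E.Point, P ≠ 0 ∧ (3:ℤ) • P = 0 := by
  have hdeg : E.Ψ₃.degree ≠ 0 := by
    have := E.natDegree_Ψ₃ (by norm_num : (3:F) ≠ 0)
    intro h
    have h2 := Polynomial.natDegree_eq_of_degree_eq_some h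
    rw [h2] at this
    norm_num at this
  obtain ⟨x, hx⟩ := IsAlgClosed.exists_root E.Ψ₃ hdeg
  obtain ⟨y, hy⟩ := exists_point E hΔ x
  refine ⟨Point.some x y hy, Point.some_ne_zero hy, three_of_p3 E hy ?_⟩
  rw [← eval_Ψ₃]; exact hx

theorem five_of_p5 [CharZero F] {x1 y1 : F} (h : E.Nonsingular x1 y1) (hp : p5 E x1 = 0) :
    (5:ℤ) • Point.some x1 y1 h = 0 := by
  set P := Point.some x1 y1 h with hP
  have hP0 : P ≠ 0 := Point.some_ne_zero h
  have hf1 : fX E x1 ≠ 0 := by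
    intro hf
    have h3 : p3 E x1 ^ 3 = 0 := by
      have := hp
      rw [p5, hf] at this
      linear_combination -this
    exact fX_ne_zero_of_p3 E h (pow_eq_zero_iff (three_ne_zero) |>.mp h3) hf
  obtain ⟨y2, h2, hd⟩ := dbl_of_fX_ne_zero E h hf1
  rw [← hP] at hd
  set x2 := gX E x1 / fX E x1 with hx2
  set Q := Point.some x2 y2 h2 with hQ
  have hfd := fX_dup E hf1
  rw [← hx2] at hfd
  have hq : q4 E x1 ≠ 0 := by
    intro hq
    have h3 : p3 E x1 ^ 3 = 0 := by
      have := hp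
      rw [p5, hq] at this
      linear_combination -this
    have h3P := three_of_p3 E h (pow_eq_zero_iff (three_ne_zero) |>.mp h3)
    rw [← hP] at h3P
    have hf2 : fX E x2 = 0 := by
      rw [hq] at hfd
      have : fX E x2 * fX E x1 ^ 3 = 0 := by rw [hfd]; ring
      rcases mul_eq_zero.mp this with h7 | h7
      · exact h7
      · exact absurd (pow_eq_zero_iff (three_ne_zero) |>.mp h7) hf1
    have h0 := dbl_of_fX_eq_zero E h2 hf2
    rw [← hQ, ← hd] at h0
    apply hP0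
    have : P = (P + P + (P + P)) - (3:ℤ) • P := by abel
    rw [this, h0, h3P]; simp
  have hf2 : fX E x2 ≠ 0 := by
    intro hf
    rw [hf] at hfd
    have : q4 E x1 ^ 2 = 0 := by rw [← hfd]; ring
    exact hq (pow_eq_zero_iff (two_ne_zero) |>.mp this)
  obtain ⟨y4, h4, hd4⟩ := dbl_of_fX_ne_zero E h2 hf2
  rw [← hQ] at hd4
  have hg := gX_dup E hf1
  rw [← hx2, hp] at hg
  have hx4 : gX E x2 / fX E x2 = x1 := by
    rw [div_eq_iff hf2]
    have : (gX E x2 - x1 * fX E x2) * fX E x1 ^ 4 = 0 := by rw [hg]; ring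
    rcases mul_eq_zero.mp this with h7 | h7
    · linear_combination h7
    · exact absurd (pow_eq_zero_iff (four_ne_zero) |>.mp h7) hf1
  rcases (Point.X_eq_iff (h₁ := h4) (h₂ := h)).mp hx4 with h1 | h1
  · exfalso
    rw [h1, ← hP, ← hd] at hd4
    have h3P : (3:ℤ) • P = 0 := by
      have : (3:ℤ) • P = (P + P + (P + P)) - P := by abel
      rw [this, hd4]; simp
    have h3 := p3_of_three E h h3P
    rw [p5, h3] at hp
    have : q4 E x1 * fX E x1 ^ 2 = 0 := by linear_combination hp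
    rcases mul_eq_zero.mp this with h7 | h7
    · exact hq h7
    · exact hf1 (pow_eq_zero_iff (two_ne_zero) |>.mp h7)
  · rw [h1, ← hP, ← hd] at hd4
    have : (5:ℤ) • P = (P + P + (P + P)) + P := by abel
    rw [this, hd4]; simp

theorem exists_five [IsAlgClosed F] [CharZero F] (hΔ : E.Δ ≠ 0) :
    ∃ P : E.Point, P ≠ 0 ∧ (5:ℤ) • P = 0 := by
  have hdeg : (E.preΨ' 5).degree ≠ 0 := by
    have := E.natDegree_preΨ' (n := 5) (by norm_num : ((5:ℕ):F) ≠ 0)
    intro h
    have h2 := Polynomial.natDegree_eq_of_degree_eq_some h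
    rw [h2] at this
    norm_num at this
  obtain ⟨x, hx⟩ := IsAlgClosed.exists_root (E.preΨ' 5) hdeg
  obtain ⟨y, hy⟩ := exists_point E hΔ x
  refine ⟨Point.some x y hy, Point.some_ne_zero hy, five_of_p5 E hy ?_⟩
  rw [← eval_preΨ'_five]; exact hx

end Fermat.Agent.S51
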