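import Fermat.Agent.S51.Dup

set_option autoImplicit false

namespace Fermat.Agent.S51

open WeierstrassCurve WeierstrassCurve.Affine

variable {F : Type*} [Field F] [DecidableEq F] (E : WeierstrassCurve.Affine F)

theorem p3_of_three {x y : F} (h : E.Nonsingular x y)
    (h3 : (3:ℤ) • Point.some x y h = 0) : p3 E x = 0 := by
  set P := Point.some x y h with hP
  have hPP : P + P = -P := by
    have : (3:ℤ) • P = P + P + P := by abel
    rw [this] at h3
    exact eq_neg_of_add_eq_zero_left h3
  by_cases hf : fX E x = 0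
  · have h0 := dbl_of_fX_eq_zero E h hf
    rw [← hP, hPP, neg_eq_zero] at h0
    exact absurd h0 (Point.some_ne_zero h)
  · obtain ⟨y', h', hd⟩ := dbl_of_fX_ne_zero E h hf
    rw [← hP, hPP, hP, Point.neg_some, Point.some.injEq] at hd
    have hx : x * fX E x = gX E x := by
      have := hd.1
      rw [eq_div_iff hf] at this
      exact this
    have := gX_sub E x
    linear_combination this + hx

theorem three_of_p3 {x y : F} (h : E.Nonsingular x y) (hp : p3 E x = 0) :
    (3:ℤ) • Point.some x y h = 0 := by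
  have hf := fX_ne_zero_of_p3 E h hp
  obtain ⟨y', h', hd⟩ := dbl_of_fX_ne_zero E h hf
  have hx : gX E x / fX E x = x := by
    rw [div_eq_iff hf]
    have := gX_sub E x
    linear_combination this - hp
  set P := Point.some x y h with hP
  have h3 : (3:ℤ) • P = P + P + P := by abel
  rw [h3, hd]
  rcases (Point.X_eq_iff (h₁ := h') (h₂ := h)).mp hx with h1 | h1
  · exfalso
    rw [h1] at hd
    have : P = 0 := by
      have := hd
      rw [← hP] at this
      exact left_eq_add.mp this.symm
    exact Point.some_ne_zero h this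
  · rw [h1, ← hP]; abel

theorem five_data [CharZero F] {x1 y1 : F} (h : E.Nonsingular x1 y1)
    (h5 : (5:ℤ) • Point.some x1 y1 h = 0) :
    ∃ (x2 y2 : F) (h2 : E.Nonsingular x2 y2),
      Point.some x1 y1 h + Point.some x1 y1 h = Point.some x2 y2 h2 ∧
      fX E x1 ≠ 0 ∧ fX E x2 ≠ 0 ∧ x2 * fX E x1 = gX E x1 ∧ x1 * fX E x2 = gX E x2 ∧
      x1 ≠ x2 ∧ p5 E x1 = 0 := by
  set P := Point.some x1 y1 h with hP
  have hP0 : P ≠ 0 := Point.some_ne_zero h
  have hf1 : fX E x1 ≠ 0 := by
    intro hf
    have h0 := dbl_of_fX_eq_zero E h hf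
    rw [← hP] at h0
    apply hP0
    have : P = (5:ℤ) • P - (2:ℤ) • (P + P) := by abel
    rw [this, h5, h0]; simp
  obtain ⟨y2, h2, hd⟩ := dbl_of_fX_ne_zero E h hf1
  rw [← hP] at hd
  set x2 := gX E x1 / fX E x1 with hx2
  set Q := Point.some x2 y2 h2 with hQ
  have hf2 : fX E x2 ≠ 0 := by
    intro hf
    have h0 := dbl_of_fX_eq_zero E h2 hf
    rw [← hQ, ← hd] at h0
    apply hP0
    have : P = (5:ℤ) • P - (P + P + (P + P)) := by abel
    rw [this, h5, h0]; simp
  obtain ⟨y4, h4, hd4⟩ := dbl_of_fX_ne_zero E h2 hf2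
  rw [← hQ] at hd4
  have hQQ : Q + Q = -P := by
    rw [← hd]
    have : P + P + (P + P) = (5:ℤ) • P - P := by abel
    rw [this, h5]; simp
  have e12 : x2 * fX E x1 = gX E x1 := by rw [hx2]; field_simp
  have e21 : x1 * fX E x2 = gX E x2 := by
    rw [hQQ, hP, Point.neg_some, Point.some.injEq] at hd4
    have := hd4.1
    rw [eq_div_iff hf2] at this
    exact this
  have hne : x1 ≠ x2 := by
    intro hx
    rcases (Point.X_eq_iff (h₁ := h) (h₂ := h2)).mp hx with h1 | h1
    · rw [← hP, ← hQ, ← hd] at h1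
      exact hP0 (left_eq_add.mp h1)
    · rw [← hP, ← hQ, ← hd] at h1
      apply hP0
      have : P = (2:ℤ) • (P + (P + P)) - (5:ℤ) • P := by abel
      rw [this, h5]
      nth_rewrite 1 [h1]
      simp
  refine ⟨x2, y2, h2, hd, hf1, hf2, e12, e21, hne, ?_⟩
  have hg := gX_dup E hf1
  rw [← hx2] at hg
  have h30 : p3 E x1 ≠ 0 := by
    intro hp
    apply hne
    have := gX_sub E x1
    rw [hp, ← e12] at this
    have h6 : (x2 - x1) * fX E x1 = 0 := by linear_combination this
    rcases mul_eq_zero.mp h6 with h7 | h7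
    · exact (sub_eq_zero.mp h7).symm
    · exact absurd h7 hf1
  have : p3 E x1 * p5 E x1 = 0 := by
    have h8 : gX E x2 - x1 * fX E x2 = 0 := by rw [e21]; ring
    rw [h8] at hg
    linear_combination hg
  rcases mul_eq_zero.mp this with h9 | h9
  · exact absurd h9 h30
  · exact h9

end Fermat.Agent.S51
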