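import Mathlib

set_option autoImplicit false

namespace Fermat.Agent.S51

/-! Rational points of `y^2 = x (x+9) (x-16)` by an elementary 2-adic descent. -/

lemma sq_emod_eight_of_odd {x : ℤ} (h : x % 2 = 1) : x ^ 2 % 8 = 1 := by
  have h8 : x % 8 = 1 ∨ x % 8 = 3 ∨ x % 8 = 5 ∨ x % 8 = 7 := by omega
  rw [pow_two, Int.mul_emod]
  rcases h8 with h | h | h | h <;> rw [h] <;> norm_num

lemma sq_emod_sixteen_of_four_dvd {x : ℤ} (h : x % 4 = 0) : x ^ 2 % 16 = 0 := by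
  obtain ⟨t, rfl⟩ : ∃ t, x = 4 * t := ⟨x / 4, by omega⟩
  have : (4 * t) ^ 2 = 16 * t ^ 2 := by ring
  omega

lemma sq_emod_sixteen_of_two {x : ℤ} (h : x % 4 = 2) : x ^ 2 % 16 = 4 := by
  obtain ⟨t, rfl⟩ : ∃ t, x = 4 * t + 2 := ⟨x / 4, by omega⟩
  have : (4 * t + 2) ^ 2 = 16 * (t ^ 2 + t) + 4 := by ring
  omega

lemma sq_emod_three (x : ℤ) : (x % 3 = 0 ∧ x ^ 2 % 3 = 0) ∨ (x % 3 ≠ 0 ∧ x ^ 2 % 3 = 1) := by
  have h3 : x % 3 = 0 ∨ x % 3 = 1 ∨ x % 3 = 2 := by omega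
  rw [pow_two, Int.mul_emod]
  rcases h3 with h | h | h <;> rw [h] <;> norm_num

lemma sq_of_coprime_pos {x y z : ℤ} (h : IsCoprime x y) (hx : 0 < x) (heq : x * y = z ^ 2) :
    ∃ s : ℤ, x = s ^ 2 := by
  obtain ⟨s, hs | hs⟩ := Int.sq_of_isCoprime h heq
  · exact ⟨s, hs⟩
  · exfalso
    have := sq_nonneg s
    omega

lemma coprime_of_add_of_mul {s x y w : ℤ} (hs : x + y = s) (hw : IsCoprime s w) (hxy : x * y = w) :
    IsCoprime x y := by
  subst hxy
  have h1 : IsCoprime s y := hw.of_mul_right_right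
  have h2 : IsCoprime (s + y * (-1)) y := h1.add_mul_left_left (-1)
  have h3 : s + y * (-1) = x := by rw [← hs]; ring
  rwa [h3] at h2


lemma coprime_of_sub_of_mul {s x y w : ℤ} (hs : x - y = s) (hw : IsCoprime s w) (hxy : x * y = w) :
    IsCoprime x y := by
  subst hxy
  have h1 : IsCoprime s y := hw.of_mul_right_right
  have h2 : IsCoprime (s + y * 1) y := h1.add_mul_left_left 1
  have h3 : s + y * 1 = x := by rw [← hs]; ring
  rwa [h3] at h2

lemma pos_of_mul_pos_of_add_pos {x y : ℤ} (h : 0 < x * y) (hs : 0 < x + y) : 0 < x ∧ 0 < y := by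
  rcases mul_pos_iff.mp h with h' | h'
  · exact h'
  · omega

lemma odd_of_sq_odd {x : ℤ} (h : x ^ 2 % 2 = 1) : x % 2 = 1 := by
  rcases Int.emod_two_eq_zero_or_one x with hx | hx
  · exfalso
    obtain ⟨t, rfl⟩ : ∃ t, x = 2 * t := ⟨x / 2, by omega⟩
    have : (2 * t) ^ 2 = 2 * (2 * t ^ 2) := by ring
    omega
  · exact hx

lemma sq_emod_four_of_even {x : ℤ} (h : x % 2 = 0) : x ^ 2 % 4 = 0 := by
  obtain ⟨t, rfl⟩ : ∃ t, x = 2 * t := ⟨x / 2, by omega⟩
  have : (2 * t) ^ 2 = 4 * t ^ 2 := by ring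
  omega

lemma isCoprime_two_of_odd {x : ℤ} (h : x % 2 = 1) : IsCoprime x 2 := by
  have : ¬ (2 : ℤ) ∣ x := by omega
  exact ((Int.prime_two.coprime_iff_not_dvd).mpr this).symm


set_option maxHeartbeats 4000000 in
theorem descent_aux (a b c e : ℤ) (h1 : a ^ 2 + 9 * e ^ 2 = b ^ 2)
    (h2 : a ^ 2 - 16 * e ^ 2 = c ^ 2)
    (hcop : IsCoprime a e) (ha : a % 2 = 1) (he : e ≠ 0) (ha0 : 0 < a) (hb0 : 0 < b)
    (hac : (a + c) % 4 = 2) :
    ∃ a' b' c' e' t : ℤ, a' ^ 2 + 9 * e' ^ 2 = b' ^ 2 ∧ a' ^ 2 - 16 * e' ^ 2 = c' ^ 2 ∧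
      a' % 2 = 1 ∧ e = 2 * t * e' := by
  have ha8 := sq_emod_eight_of_odd ha
  -- `e` is even
  have he2 : e % 2 = 0 := by
    by_contra hne
    have he1 : e % 2 = 1 := by omega
    have he8 := sq_emod_eight_of_odd he1
    rcases Int.emod_two_eq_zero_or_one b with hb | hb
    · have := sq_emod_four_of_even hb
      omega
    · have := sq_emod_eight_of_odd hb
      omega
  obtain ⟨e₁, rfl⟩ : ∃ e₁, e = 2 * e₁ := ⟨e / 2, by omega⟩
  have he₁ : e₁ ≠ 0 := by rintro rfl; simp at he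
  have he₁sq : 0 < e₁ ^ 2 := by positivity
  have hee : (2 * e₁) ^ 2 = 4 * e₁ ^ 2 := by ring
  rw [hee] at h1 h2
  have hb2 : b % 2 = 1 := by
    apply odd_of_sq_odd
    omega
  have hc2 : c % 2 = 1 := by omega
  obtain ⟨P, hP⟩ : ∃ P, a + b = 2 * P := ⟨(a + b) / 2, by omega⟩
  obtain ⟨Q, hQ⟩ : ∃ Q, b - a = 2 * Q := ⟨(b - a) / 2, by omega⟩
  obtain ⟨M, hM⟩ : ∃ M, a + c = 2 * M := ⟨(a + c) / 2, by omega⟩
  obtain ⟨N, hN⟩ : ∃ N, a - c = 2 * N := ⟨(a - c) / 2, by omega⟩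
  obtain ⟨K, hK⟩ : ∃ K, b + c = 2 * K := ⟨(b + c) / 2, by omega⟩
  obtain ⟨L, hL⟩ : ∃ L, b - c = 2 * L := ⟨(b - c) / 2, by omega⟩
  have hPQ : P * Q = 9 * e₁ ^ 2 := by
    have : 4 * (P * Q) = 4 * (9 * e₁ ^ 2) := by
      have : (2 * P) * (2 * Q) = b ^ 2 - a ^ 2 := by rw [← hP, ← hQ]; ring
      linarith
    linarith
  have hMN : M * N = 16 * e₁ ^ 2 := by
    have : 4 * (M * N) = 4 * (16 * e₁ ^ 2) := by
      have : (2 * M) * (2 * N) = a ^ 2 - c ^ 2 := by rw [← hM, ← hN]; ring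
      linarith
    linarith
  have hKL : K * L = 25 * e₁ ^ 2 := by
    have : 4 * (K * L) = 4 * (25 * e₁ ^ 2) := by
      have : (2 * K) * (2 * L) = b ^ 2 - c ^ 2 := by rw [← hK, ← hL]; ring
      linarith
    linarith
  -- positivity
  have hab : a < b := by
    by_contra h
    push Not at h
    have : b ^ 2 ≤ a ^ 2 := by nlinarith
    linarith
  have hP0 : 0 < P := by omega
  have hQ0 : 0 < Q := by omega
  obtain ⟨hM0, hN0⟩ : 0 < M ∧ 0 < N :=
    pos_of_mul_pos_of_add_pos (by rw [hMN]; positivity) (by omega)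
  obtain ⟨hK0, hL0⟩ : 0 < K ∧ 0 < L :=
    pos_of_mul_pos_of_add_pos (by rw [hKL]; positivity) (by omega)
  -- coprimality
  have hae₁ : IsCoprime a e₁ := hcop.of_mul_right_right
  have h3a : ¬ (3 : ℤ) ∣ a := by
    intro h3
    have ha3 : a % 3 = 0 := by omega
    have h3e : (3 : ℤ) ∣ e₁ := by
      rcases sq_emod_three a with ⟨_, hA⟩ | ⟨hA, _⟩
      · rcases sq_emod_three c with ⟨_, hC⟩ | ⟨_, hC⟩ <;>
          rcases sq_emod_three e₁ with ⟨hE', hE⟩ | ⟨hE', hE⟩ <;> omega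
      · exact absurd ha3 hA
    have := hae₁.isUnit_of_dvd' h3 h3e
    rw [Int.isUnit_iff] at this
    omega
  have ha3 : IsCoprime a 3 := ((Int.prime_three.coprime_iff_not_dvd).mpr h3a).symm
  have ha2 : IsCoprime a 2 := isCoprime_two_of_odd ha
  have hcPQ : IsCoprime P Q := by
    refine coprime_of_sub_of_mul (s := a) (by omega) ?_ hPQ
    have : (9 : ℤ) = 3 ^ 2 := by norm_num
    rw [this]
    exact (ha3.pow_right).mul_right (hae₁.pow_right)
  have hcMN : IsCoprime M N := by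
    refine coprime_of_add_of_mul (s := a) (by omega) ?_ hMN
    have : (16 : ℤ) = 2 ^ 4 := by norm_num
    rw [this]
    exact (ha2.pow_right).mul_right (hae₁.pow_right)
  have hbe₁ : IsCoprime b e₁ := by
    have h : IsCoprime (a ^ 2 + e₁ * (36 * e₁)) e₁ := (hae₁.pow_left).add_mul_left_left _
    have h' : a ^ 2 + e₁ * (36 * e₁) = b ^ 2 := by rw [← h1]; ring
    rw [h'] at h
    exact (IsCoprime.pow_left_iff (by norm_num)).mp h
  -- squares
  obtain ⟨p, rfl⟩ := sq_of_coprime_pos hcPQ hP0 (z := 3 * e₁) (by rw [hPQ]; ring)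
  obtain ⟨q, rfl⟩ := sq_of_coprime_pos hcPQ.symm hQ0 (z := 3 * e₁) (by rw [mul_comm, hPQ]; ring)
  obtain ⟨m, rfl⟩ := sq_of_coprime_pos hcMN hM0 (z := 4 * e₁) (by rw [hMN]; ring)
  obtain ⟨n, rfl⟩ := sq_of_coprime_pos hcMN.symm hN0 (z := 4 * e₁) (by rw [mul_comm, hMN]; ring)
  -- parity of m, n
  have hm2 : m % 2 = 1 := by
    apply odd_of_sq_odd
    omega
  have hm8 := sq_emod_eight_of_odd hm2
  have hm0 : m ≠ 0 := by rintro rfl; simp at hm2
  have h16 : (16 : ℤ) ∣ n ^ 2 := by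
    have hc16 : IsCoprime (16 : ℤ) (m ^ 2) := by
      have : (16 : ℤ) = 2 ^ 4 := by norm_num
      rw [this]
      exact ((isCoprime_two_of_odd hm2).symm.pow_left).pow_right
    exact hc16.dvd_of_dvd_mul_left ⟨e₁ ^ 2, hMN⟩
  obtain ⟨n', rfl⟩ : (4 : ℤ) ∣ n := by
    have : (4 : ℤ) ^ 2 ∣ n ^ 2 := by norm_num; exact h16
    exact (Int.pow_dvd_pow_iff two_ne_zero).mp this
  have hmn : (m * n') ^ 2 = e₁ ^ 2 := by
    have : 16 * (m * n') ^ 2 = 16 * e₁ ^ 2 := by rw [← hMN]; ring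
    linarith
  have hn16 : (4 * n') ^ 2 = 16 * n' ^ 2 := by ring
  -- a = 1 mod 8
  have ha18 : a % 8 = 1 := by omega
  -- parity of p, q
  have hp2 : p % 2 = 1 := by
    rcases Int.emod_two_eq_zero_or_one p with hp | hp
    · exfalso
      have h4 := sq_emod_four_of_even hp
      have hq2 : q % 2 = 1 := by
        apply odd_of_sq_odd
        omega
      have := sq_emod_eight_of_odd hq2
      omega
    · exact hp
  have hp8 := sq_emod_eight_of_odd hp2
  have hq4 : q % 4 = 0 := by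
    rcases Int.emod_two_eq_zero_or_one q with hq | hq
    · by_contra hq4
      have : q % 4 = 2 := by omega
      have := sq_emod_sixteen_of_two this
      omega
    · exfalso
      have := sq_emod_eight_of_odd hq
      omega
  have hq16 := sq_emod_sixteen_of_four_dvd hq4
  have hb18 : b % 8 = 1 := by omega
  -- e₁ ^ 2 = 0 mod 16
  have he16 : e₁ ^ 2 % 16 = 0 := by
    obtain ⟨j, hj⟩ : ∃ j, q ^ 2 = 16 * j := ⟨q ^ 2 / 16, by omega⟩
    have : 9 * e₁ ^ 2 = 16 * (p ^ 2 * j) := by rw [← hPQ, hj]; ring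
    omega
  -- K is a square
  obtain ⟨k, hk⟩ : ∃ k, K = k ^ 2 := by
    by_cases h5 : (5 : ℤ) ∣ b
    · exfalso
      obtain ⟨b', rfl⟩ := h5
      have h5p : Prime (5 : ℤ) := by
        rw [Int.prime_iff_natAbs_prime]; norm_num
      have h5KL : (5 : ℤ) ∣ K * L := ⟨5 * e₁ ^ 2, by rw [hKL]; ring⟩
      have h5K : (5 : ℤ) ∣ K := by
        rcases h5p.dvd_or_dvd h5KL with h | h
        · exact h
        · omega
      have h5L : (5 : ℤ) ∣ L := by omega
      obtain ⟨K', rfl⟩ := h5K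
      obtain ⟨L', rfl⟩ := h5L
      have hKL' : K' * L' = e₁ ^ 2 := by
        have : 25 * (K' * L') = 25 * e₁ ^ 2 := by rw [← hKL]; ring
        linarith
      have hb'e : IsCoprime b' e₁ := hbe₁.of_mul_left_right
      have hcKL' : IsCoprime K' L' :=
        coprime_of_add_of_mul (s := b') (by omega) (hb'e.pow_right) hKL'
      obtain ⟨k, rfl⟩ := sq_of_coprime_pos hcKL' (by omega) hKL'
      obtain ⟨l, rfl⟩ := sq_of_coprime_pos hcKL'.symm (by omega) (by rw [mul_comm, hKL'])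
      -- k^2 + l^2 = 5 mod 8
      have hkl : (k ^ 2 + l ^ 2) % 8 = 5 := by omega
      have key : ∀ k l : ℤ, k % 2 = 1 → (k ^ 2 + l ^ 2) % 8 = 5 → (k ^ 2 * l ^ 2) % 16 = 4 := by
        intro k l hk hkl
        have hk8 := sq_emod_eight_of_odd hk
        have hl4 : l % 4 = 2 := by
          rcases Int.emod_two_eq_zero_or_one l with hl | hl
          · by_contra hl4
            have : l % 4 = 0 := by omega
            have := sq_emod_sixteen_of_four_dvd this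
            omega
          · exfalso
            have := sq_emod_eight_of_odd hl
            omega
        have hl16 := sq_emod_sixteen_of_two hl4
        obtain ⟨u, hu⟩ : ∃ u, k ^ 2 = 8 * u + 1 := ⟨k ^ 2 / 8, by omega⟩
        obtain ⟨v, hv⟩ : ∃ v, l ^ 2 = 16 * v + 4 := ⟨l ^ 2 / 16, by omega⟩
        have : k ^ 2 * l ^ 2 = 16 * (8 * (u * v) + 2 * u + v) + 4 := by rw [hu, hv]; ring
        omega
      rcases Int.emod_two_eq_zero_or_one k with hk | hk
      · have hl : l % 2 = 1 := by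
          apply odd_of_sq_odd
          have := sq_emod_four_of_even hk
          omega
        have := key l k hl (by rw [add_comm]; exact hkl)
        rw [mul_comm, hKL'] at this
        omega
      · have := key k l hk hkl
        rw [hKL'] at this
        omega
    · have hb5 : IsCoprime b 5 := by
        have h5p : Prime (5 : ℤ) := by
          rw [Int.prime_iff_natAbs_prime]; norm_num
        exact ((h5p.coprime_iff_not_dvd).mpr h5).symm
      have hcKL : IsCoprime K L := by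
        refine coprime_of_add_of_mul (s := b) (by omega) ?_ hKL
        have : (25 : ℤ) = 5 ^ 2 := by norm_num
        rw [this]
        exact (hb5.pow_right).mul_right (hbe₁.pow_right)
      exact sq_of_coprime_pos hcKL hK0 (z := 5 * e₁) (by rw [hKL]; ring)
  subst hk
  -- the new solution
  have hC : p ^ 2 - 16 * n' ^ 2 = k ^ 2 := by omega
  have hB0 : m ^ 2 * (p ^ 2 + 9 * n' ^ 2) = (k * p) ^ 2 := by
    have h9 : k ^ 2 - m ^ 2 = q ^ 2 := by omega
    have : m ^ 2 * (p ^ 2 + 9 * n' ^ 2) = m ^ 2 * p ^ 2 + 9 * (m * n') ^ 2 := by ring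
    rw [this, hmn]
    have : 9 * e₁ ^ 2 = p ^ 2 * (k ^ 2 - m ^ 2) := by rw [h9, hPQ]
    rw [this]; ring
  obtain ⟨B, hB⟩ : m ∣ k * p := (Int.pow_dvd_pow_iff two_ne_zero).mp ⟨_, hB0.symm⟩
  have hB' : p ^ 2 + 9 * n' ^ 2 = B ^ 2 := by
    have : m ^ 2 * (p ^ 2 + 9 * n' ^ 2) = m ^ 2 * B ^ 2 := by rw [hB0, hB]; ring
    exact mul_left_cancel₀ (pow_ne_zero 2 hm0) this
  rcases sq_eq_sq_iff_eq_or_eq_neg.mp hmn with h | h
  · exact ⟨p, B, k, n', m, hB', hC, hp2, by rw [← h]; ring⟩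
  · exact ⟨p, B, k, n', -m, hB', hC, hp2, by
      have : e₁ = -(m * n') := by rw [h]; ring
      rw [this]; ring⟩


lemma normalize (a b c e : ℤ) (he : e ≠ 0) (h1 : a ^ 2 + 9 * e ^ 2 = b ^ 2)
    (h2 : a ^ 2 - 16 * e ^ 2 = c ^ 2) :
    ∃ g a₀ b₀ c₀ e₀ : ℤ, g ≠ 0 ∧ a = a₀ * g ∧ b = b₀ * g ∧ c = c₀ * g ∧ e = e₀ * g ∧
      IsCoprime a₀ e₀ ∧ a₀ ^ 2 + 9 * e₀ ^ 2 = b₀ ^ 2 ∧ a₀ ^ 2 - 16 * e₀ ^ 2 = c₀ ^ 2 := by
  have hg : 0 < Int.gcd a e := Int.gcd_pos_of_ne_zero_right a he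
  obtain ⟨a₀, e₀, hcop, ha, he'⟩ := Int.exists_gcd_one hg
  set g : ℤ := (Int.gcd a e : ℤ) with hgdef
  have hg0 : g ≠ 0 := by
    have : (0 : ℤ) < g := by rw [hgdef]; exact_mod_cast hg
    exact this.ne'
  have hb : g ∣ b := by
    apply (Int.pow_dvd_pow_iff two_ne_zero).mp
    refine ⟨a₀ ^ 2 + 9 * e₀ ^ 2, ?_⟩
    rw [← h1]
    conv_lhs => rw [ha, he']
    ring
  have hc : g ∣ c := by
    apply (Int.pow_dvd_pow_iff two_ne_zero).mp
    refine ⟨a₀ ^ 2 - 16 * e₀ ^ 2, ?_⟩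
    rw [← h2]
    conv_lhs => rw [ha, he']
    ring
  obtain ⟨b₀, hb₀⟩ := hb
  obtain ⟨c₀, hc₀⟩ := hc
  refine ⟨g, a₀, b₀, c₀, e₀, hg0, ha, by rw [hb₀]; ring, by rw [hc₀]; ring, he',
    Int.isCoprime_iff_gcd_eq_one.mpr hcop, ?_, ?_⟩
  · have : g ^ 2 * (a₀ ^ 2 + 9 * e₀ ^ 2) = g ^ 2 * b₀ ^ 2 := by
      have h : (a₀ * g) ^ 2 + 9 * (e₀ * g) ^ 2 = (g * b₀) ^ 2 := by
        rw [← ha, ← he', ← hb₀]; exact h1
      linear_combination h
    exact mul_left_cancel₀ (pow_ne_zero 2 hg0) this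
  · have : g ^ 2 * (a₀ ^ 2 - 16 * e₀ ^ 2) = g ^ 2 * c₀ ^ 2 := by
      have h : (a₀ * g) ^ 2 - 16 * (e₀ * g) ^ 2 = (g * c₀) ^ 2 := by
        rw [← ha, ← he', ← hc₀]; exact h2
      linear_combination h
    exact mul_left_cancel₀ (pow_ne_zero 2 hg0) this

/-- descent step without sign normalisations -/
theorem descent_step (a b c e : ℤ) (h1 : a ^ 2 + 9 * e ^ 2 = b ^ 2)
    (h2 : a ^ 2 - 16 * e ^ 2 = c ^ 2)
    (hcop : IsCoprime a e) (ha : a % 2 = 1) (he : e ≠ 0) :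
    ∃ a' b' c' e' t : ℤ, a' ^ 2 + 9 * e' ^ 2 = b' ^ 2 ∧ a' ^ 2 - 16 * e' ^ 2 = c' ^ 2 ∧
      a' % 2 = 1 ∧ e = 2 * t * e' := by
  -- reduce to a > 0
  wlog ha0 : 0 < a generalizing a
  · have ha' : a ≠ 0 := by rintro rfl; simp at ha
    exact this (-a) (by rw [neg_sq]; exact h1) (by rw [neg_sq]; exact h2) hcop.neg_left
      (by omega) (by omega)
  wlog hb0 : 0 < b generalizing b
  · have hb' : b ≠ 0 := by
      rintro rfl
      have : 0 < a ^ 2 := by positivity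
      have : 0 ≤ e ^ 2 := sq_nonneg e
      nlinarith
    exact this (-b) (by rw [neg_sq]; exact h1) (by omega)
  have hc2 : c % 2 = 1 := by
    apply odd_of_sq_odd
    have := sq_emod_eight_of_odd ha
    omega
  by_cases hac : (a + c) % 4 = 2
  · exact descent_aux a b c e h1 h2 hcop ha he ha0 hb0 hac
  · exact descent_aux a b (-c) e h1 (by rw [neg_sq]; exact h2) hcop ha he ha0 hb0 (by omega)

theorem two_pow_dvd (j : ℕ) : ∀ a b c e : ℤ, a ^ 2 + 9 * e ^ 2 = b ^ 2 →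
    a ^ 2 - 16 * e ^ 2 = c ^ 2 → a % 2 = 1 → (2 : ℤ) ^ j ∣ e := by
  induction j with
  | zero => intro a b c e _ _ _; simp
  | succ j ih =>
    intro a b c e h1 h2 ha
    by_cases he : e = 0
    · rw [he]; exact dvd_zero _
    obtain ⟨g, a₀, b₀, c₀, e₀, hg, rfl, rfl, rfl, rfl, hcop, h1', h2'⟩ := normalize a b c e he h1 h2
    have ha₀ : a₀ % 2 = 1 := by
      rcases Int.emod_two_eq_zero_or_one a₀ with h | h
      · exfalso
        have : (a₀ * g) % 2 = 0 := by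
          rw [Int.mul_emod, h]; simp
        omega
      · exact h
    have he₀ : e₀ ≠ 0 := by rintro rfl; simp at he
    obtain ⟨a', b', c', e', t, h1'', h2'', ha', rfl⟩ := descent_step a₀ b₀ c₀ e₀ h1' h2' hcop ha₀ he₀
    obtain ⟨w, hw⟩ := ih a' b' c' e' h1'' h2'' ha'
    exact ⟨t * w * g, by rw [hw]; ring⟩

theorem eq_zero_of_odd (a b c e : ℤ) (h1 : a ^ 2 + 9 * e ^ 2 = b ^ 2)
    (h2 : a ^ 2 - 16 * e ^ 2 = c ^ 2) (ha : a % 2 = 1) : e = 0 := by
  have h := two_pow_dvd e.natAbs a b c e h1 h2 ha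
  apply Int.eq_zero_of_dvd_of_natAbs_lt_natAbs h
  rw [Int.natAbs_pow]
  exact Nat.lt_two_pow_self

theorem K_int (a b c e : ℤ) (he : e ≠ 0) (h1 : a ^ 2 + 9 * e ^ 2 = b ^ 2)
    (h2 : a ^ 2 - 16 * e ^ 2 = c ^ 2) : c = 0 := by
  obtain ⟨g, a₀, b₀, c₀, e₀, hg, rfl, rfl, rfl, rfl, hcop, h1', h2'⟩ := normalize a b c e he h1 h2
  have he₀ : e₀ ≠ 0 := by rintro rfl; simp at he
  rcases Int.emod_two_eq_zero_or_one a₀ with ha | ha
  · -- a₀ even, so e₀ odd
    have he2 : e₀ % 2 = 1 := by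
      rcases Int.emod_two_eq_zero_or_one e₀ with h | h
      · exfalso
        have := hcop.isUnit_of_dvd' (x := 2) (by omega) (by omega)
        rw [Int.isUnit_iff] at this
        omega
      · exact h
    have he8 := sq_emod_eight_of_odd he2
    have ha4 := sq_emod_four_of_even ha
    have hc2 : c₀ % 2 = 0 := by
      rcases Int.emod_two_eq_zero_or_one c₀ with h | h
      · exact h
      · have := sq_emod_eight_of_odd h
        omega
    obtain ⟨a₁, rfl⟩ : ∃ a₁, a₀ = 2 * a₁ := ⟨a₀ / 2, by omega⟩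
    obtain ⟨c₁, rfl⟩ : ∃ c₁, c₀ = 2 * c₁ := ⟨c₀ / 2, by omega⟩
    have h3 : a₁ ^ 2 - 4 * e₀ ^ 2 = c₁ ^ 2 := by
      have : 4 * (a₁ ^ 2 - 4 * e₀ ^ 2) = 4 * c₁ ^ 2 := by linear_combination h2'
      linarith
    have ha₁ : a₁ % 2 = 0 := by
      rcases Int.emod_two_eq_zero_or_one a₁ with h | h
      · exact h
      · exfalso
        have h8 := sq_emod_eight_of_odd h
        have hc₁ : c₁ % 2 = 1 := by
          apply odd_of_sq_odd
          omega
        have := sq_emod_eight_of_odd hc₁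
        omega
    have hc₁ : c₁ % 2 = 0 := by
      rcases Int.emod_two_eq_zero_or_one c₁ with h | h
      · exact h
      · have := sq_emod_eight_of_odd h
        have := sq_emod_four_of_even ha₁
        omega
    obtain ⟨a₂, rfl⟩ : ∃ a₂, a₁ = 2 * a₂ := ⟨a₁ / 2, by omega⟩
    obtain ⟨c₂, rfl⟩ : ∃ c₂, c₁ = 2 * c₂ := ⟨c₁ / 2, by omega⟩
    have h4 : a₂ ^ 2 - e₀ ^ 2 = c₂ ^ 2 := by
      have : 4 * (a₂ ^ 2 - e₀ ^ 2) = 4 * c₂ ^ 2 := by linear_combination h3
      linarith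
    have hb2 : b₀ % 2 = 1 := by
      apply odd_of_sq_odd
      have : (2 * (2 * a₂)) ^ 2 = 16 * a₂ ^ 2 := by ring
      omega
    have hc₂ : c₂ = 0 :=
      eq_zero_of_odd b₀ (5 * a₂) (5 * e₀) c₂ (by linear_combination (-1 : ℤ) * h1' - 9 * h4)
        (by linear_combination (-1 : ℤ) * h1' + 16 * h4) hb2
    rw [hc₂]; simp
  · exact absurd (eq_zero_of_odd a₀ b₀ c₀ e₀ h1' h2' ha) he₀

theorem K_rat (r s t : ℚ) (h1 : r ^ 2 + 9 = s ^ 2) (h2 : r ^ 2 - 16 = t ^ 2) : t = 0 := by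
  have hr : (r.num : ℚ) = r * r.den := (Rat.mul_den_eq_num r).symm
  have hs : (s.num : ℚ) = s * s.den := (Rat.mul_den_eq_num s).symm
  have ht : (t.num : ℚ) = t * t.den := (Rat.mul_den_eq_num t).symm
  have hrd : (r.den : ℤ) ≠ 0 := by exact_mod_cast r.den_nz
  have hsd : (s.den : ℤ) ≠ 0 := by exact_mod_cast s.den_nz
  have htd : (t.den : ℤ) ≠ 0 := by exact_mod_cast t.den_nz
  have key := K_int (r.num * s.den * t.den) (s.num * r.den * t.den) (t.num * r.den * s.den)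
    (r.den * s.den * t.den) (mul_ne_zero (mul_ne_zero hrd hsd) htd)
    (by
      have : ((r.num * s.den * t.den : ℤ) : ℚ) ^ 2 + 9 * ((r.den * s.den * t.den : ℤ) : ℚ) ^ 2 =
          ((s.num * r.den * t.den : ℤ) : ℚ) ^ 2 := by
        push_cast
        rw [hr, hs]
        linear_combination ((r.den : ℚ) * s.den * t.den) ^ 2 * h1
      exact_mod_cast this)
    (by
      have : ((r.num * s.den * t.den : ℤ) : ℚ) ^ 2 - 16 * ((r.den * s.den * t.den : ℤ) : ℚ) ^ 2 =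
          ((t.num * r.den * s.den : ℤ) : ℚ) ^ 2 := by
        push_cast
        rw [hr, ht]
        linear_combination ((r.den : ℚ) * s.den * t.den) ^ 2 * h2
      exact_mod_cast this)
  have : t.num = 0 := by
    rcases mul_eq_zero.mp key with h | h
    · rcases mul_eq_zero.mp h with h | h
      · exact h
      · exact absurd h hrd
    · exact absurd h hsd
  exact Rat.num_eq_zero.mp this

theorem rational_points_X015 (x y : ℚ) (h : y ^ 2 = x * (x + 9) * (x - 16)) :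
    x = 0 ∨ x = -9 ∨ x = 16 ∨ x = -4 ∨ x = 36 := by
  by_cases hy : y = 0
  · rw [hy] at h
    have h' : x * (x + 9) * (x - 16) = 0 := by rw [← h]; ring
    rcases mul_eq_zero.mp h' with h' | h'
    · rcases mul_eq_zero.mp h' with h' | h'
      · exact Or.inl h'
      · right; left; linarith
    · right; right; left; linarith
  · have h2y : (2 * y) ≠ 0 := mul_ne_zero two_ne_zero hy
    have key := K_rat ((x ^ 2 + 144) / (2 * y)) ((x ^ 2 + 18 * x - 144) / (2 * y))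
      ((x ^ 2 - 32 * x - 144) / (2 * y))
      (by
        field_simp
        linear_combination 36 * h)
      (by
        field_simp
        linear_combination (-64 : ℚ) * h)
    have h0 : x ^ 2 - 32 * x - 144 = 0 := by
      rcases div_eq_zero_iff.mp key with h' | h'
      · exact h'
      · exact absurd h' h2y
    have h1 : (x - 36) * (x + 4) = 0 := by linear_combination h0
    rcases mul_eq_zero.mp h1 with h' | h'
    · right; right; right; right; linarith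
    · right; right; right; left; linarith

end Fermat.Agent.S51
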